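/-
The growth of the fixed points on torsion and of products over algebraic integers.
-/
import Mathlib.RingTheory.IntegralClosure.IsIntegralClosure.Basic
import Mathlib.RingTheory.IntegralClosure.IntegrallyClosed
import Mathlib.RingTheory.Localization.Integral
import Mathlib.Data.Complex.Basic
import Mathlib.GroupTheory.Perm.Cycle.Type
import Mathlib.GroupTheory.Perm.Finite
import Mathlib.GroupTheory.FiniteAbelian.Basic
import Mathlib.RingTheory.Ideal.Quotient.Operations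
import Mathlib.Analysis.Complex.Basic
import Mathlib.RingTheory.UniqueFactorizationDomain.Basic
import Mathlib.RingTheory.PrincipalIdealDomain
import Mathlib.RingTheory.Int.Basic
import Mathlib.Data.Nat.Factorization.Basic

set_option autoImplicit false
set_option linter.style.haveILetI false

noncomputable section

namespace Fermat.Agent.MCurve.FiniteField

open Finset

/-- A common exponent bringing units to one modulo `ℓ ^ 2`. -/
theorem exists_pow_congr_one {s : Multiset ℂ} {Q ℓ : ℕ} (hℓ : ℓ.Prime) (hQ : Q.Coprime ℓ)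
    (hint : ∀ x ∈ s, IsIntegral ℤ x)
    (hunit : ∀ x ∈ s, ∃ y : ℂ, IsIntegral ℤ y ∧ x * y = (Q : ℂ)) :
    ∃ m, 0 < m ∧ ∀ x ∈ s, ∃ z : ℂ, IsIntegral ℤ z ∧ x ^ m = 1 + (ℓ : ℂ) ^ 2 * z := by
  classical
  let O := integralClosure ℤ ℂ
  let I : Ideal O := Ideal.span {(ℓ : O) ^ 2}
  have hone : ∀ x ∈ s, ∃ m, 0 < m ∧ ∃ z : ℂ, IsIntegral ℤ z ∧ x ^ m = 1 + (ℓ : ℂ) ^ 2 * z := by
    intro x hx
    obtain ⟨y, hy, hxy⟩ := hunit x hx
    let a : O ⧸ I := Ideal.Quotient.mk I ⟨x, hint x hx⟩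
    have hl : ((ℓ : ℕ) : O ⧸ I) ^ 2 = 0 := by
      rw [← map_natCast (Ideal.Quotient.mk I), ← map_pow, Ideal.Quotient.eq_zero_iff_mem]
      exact Ideal.mem_span_singleton_self _
    have ha : IsUnit a := by
      obtain ⟨u, v, huv⟩ := (Nat.Coprime.pow_right 2 hQ).isCoprime
      refine IsUnit.of_mul_eq_one (Ideal.Quotient.mk I ⟨y, hy⟩ * (u : O ⧸ I)) ?_
      have e : a * Ideal.Quotient.mk I ⟨y, hy⟩ = ((Q : ℕ) : O ⧸ I) := by
        rw [← map_mul, ← map_natCast (Ideal.Quotient.mk I)]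
        exact congrArg _ (Subtype.ext (by simpa using hxy))
      rw [← mul_assoc, e]
      have := congrArg (Int.cast : ℤ → O ⧸ I) huv
      push_cast at this
      rw [hl, mul_zero, add_zero, mul_comm] at this
      exact this
    have hfin : ((Algebra.adjoin ℤ {a}).toSubmodule : Set (O ⧸ I)).Finite := by
      have hint' : IsIntegral ℤ a :=
        (Algebra.IsIntegral.isIntegral (⟨x, hint x hx⟩ : O)).map (Ideal.Quotient.mkₐ ℤ I)
      haveI : Module.Finite ℤ (Algebra.adjoin ℤ {a}).toSubmodule :=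
        Module.Finite.iff_fg.mpr hint'.fg_adjoin_singleton
      haveI := Module.finite_of_fg_torsion ((Algebra.adjoin ℤ {a}).toSubmodule) fun b => by
        refine ⟨⟨((ℓ : ℤ) ^ 2), mem_nonZeroDivisors_of_ne_zero
          (pow_ne_zero _ (by exact_mod_cast hℓ.ne_zero))⟩, Subtype.ext ?_⟩
        show ((ℓ : ℤ) ^ 2) • (b : O ⧸ I) = 0
        rw [zsmul_eq_mul]
        push_cast
        rw [hl, zero_mul]
      exact Set.toFinite _
    obtain ⟨i, -, j, -, hne, hij⟩ : ∃ i ∈ (Set.univ : Set ℕ), ∃ j ∈ (Set.univ : Set ℕ),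
        i ≠ j ∧ a ^ i = a ^ j :=
      Set.infinite_univ.exists_ne_map_eq_of_mapsTo (f := fun i : ℕ => a ^ i)
        (fun i _ => pow_mem (Algebra.self_mem_adjoin_singleton ℤ a) i) hfin
    obtain ⟨d, hd, hd1⟩ : ∃ d, 0 < d ∧ a ^ d = 1 := by
      rcases lt_or_gt_of_ne hne with h | h
      · refine ⟨j - i, by omega, (ha.pow i).mul_left_cancel ?_⟩
        rw [← pow_add, Nat.add_sub_cancel' h.le, mul_one, hij]
      · refine ⟨i - j, by omega, (ha.pow j).mul_left_cancel ?_⟩
        rw [← pow_add, Nat.add_sub_cancel' h.le, mul_one, hij]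
    refine ⟨d, hd, ?_⟩
    rw [← map_pow, ← (Ideal.Quotient.mk I).map_one, Ideal.Quotient.eq,
      Ideal.mem_span_singleton'] at hd1
    obtain ⟨z, hz⟩ := hd1
    refine ⟨z, z.2, ?_⟩
    have := congrArg Subtype.val hz
    simp at this
    linear_combination -this
  choose! m hm z hz hxz using hone
  refine ⟨∏ x ∈ s.toFinset, m x, Finset.prod_pos fun x hx => hm x (Multiset.mem_toFinset.mp hx),
    fun x hx => ?_⟩
  obtain ⟨c, hc⟩ := Finset.dvd_prod_of_mem m (Multiset.mem_toFinset.mpr hx)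
  have hxm : IsIntegral ℤ ((1 : ℂ) + (ℓ : ℂ) ^ 2 * z x) := by
    rw [← hxz x hx]; exact (hint x hx).pow _
  refine ⟨z x * ∑ i ∈ range c, (1 + (ℓ : ℂ) ^ 2 * z x) ^ i,
    (hz x hx).mul (IsIntegral.sum _ fun i _ => hxm.pow i), ?_⟩
  rw [hc, pow_mul, hxz x hx]
  have := geom_sum_mul (1 + (ℓ : ℂ) ^ 2 * z x) c
  linear_combination -this

/-- One step of the growth of the product. -/
theorem prod_one_sub_pow {s : Multiset ℂ} {ℓ : ℕ}
    (h : ∀ β ∈ s, ∃ z : ℂ, IsIntegral ℤ z ∧ β = 1 + (ℓ : ℂ) ^ 2 * z) :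
    ∃ W : ℂ, IsIntegral ℤ W ∧ (s.map fun β => 1 - β ^ ℓ).prod =
      (s.map fun β => 1 - β).prod * (ℓ : ℂ) ^ Multiset.card s * (1 + ℓ * W) := by
  induction s using Multiset.induction_on with
  | empty => exact ⟨0, isIntegral_zero, by simp⟩
  | cons b s ih =>
    obtain ⟨W, hW, e⟩ := ih fun β hβ => h β (Multiset.mem_cons_of_mem hβ)
    obtain ⟨z, hz, rfl⟩ := h b (Multiset.mem_cons_self _ _)
    set β := 1 + (ℓ : ℂ) ^ 2 * z with hβ
    have hβi : IsIntegral ℤ β :=
      isIntegral_one.add (((isIntegral_algebraMap (R := ℤ) (x := (ℓ : ℤ))).pow 2).mul hz |> fun h => by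
        simpa using h)
    set w := z * ∑ i ∈ range ℓ, ∑ j ∈ range i, β ^ j with hw
    have hwi : IsIntegral ℤ w :=
      hz.mul (IsIntegral.sum _ fun i _ => IsIntegral.sum _ fun j _ => hβi.pow j)
    have hsum : ∑ i ∈ range ℓ, β ^ i = (ℓ : ℂ) * (1 + ℓ * w) := by
      have : ∀ i, β ^ i = 1 + (ℓ : ℂ) ^ 2 * z * ∑ j ∈ range i, β ^ j := fun i => by
        have := geom_sum_mul β i
        rw [show β - 1 = (ℓ : ℂ) ^ 2 * z by rw [hβ]; ring] at this
        linear_combination -this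
      rw [Finset.sum_congr rfl fun i _ => this i, Finset.sum_add_distrib, ← Finset.mul_sum, hw]
      simp
      ring
    refine ⟨W + w + ℓ * W * w, (hW.add hwi).add ((IsIntegral.mul ?_ hW).mul hwi), ?_⟩
    · simpa using (isIntegral_algebraMap (R := ℤ) (A := ℂ) (x := (ℓ : ℤ)))
    rw [Multiset.map_cons, Multiset.prod_cons, Multiset.map_cons, Multiset.prod_cons,
      Multiset.card_cons, e, show 1 - β ^ ℓ = (1 - β) * ((ℓ : ℂ) * (1 + ℓ * w)) by
        rw [← hsum]; linear_combination geom_sum_mul β ℓ]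
    ring

theorem factorization_step {ℓ h h' D : ℕ} (hℓ : ℓ.Prime) (hh : h ≠ 0) {W : ℂ}
    (hW : IsIntegral ℤ W) (e : (h' : ℂ) = (h : ℂ) * (ℓ : ℂ) ^ D * (1 + ℓ * W)) :
    h'.factorization ℓ = h.factorization ℓ + D := by
  have hl : (ℓ : ℂ) ≠ 0 := by exact_mod_cast hℓ.ne_zero
  have hhC : (h : ℂ) ≠ 0 := by exact_mod_cast hh
  set r : ℚ := ((h' : ℚ) - h * (ℓ : ℚ) ^ D) / (h * (ℓ : ℚ) ^ (D + 1)) with hr
  have hWr : W = algebraMap ℚ ℂ r := by
    rw [hr, map_div₀, map_sub, map_mul, map_mul, map_pow, map_pow]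
    simp only [map_natCast]
    rw [e]
    field_simp
    ring
  have hri : IsIntegral ℤ r := by
    rw [hWr] at hW
    exact (isIntegral_algebraMap_iff (algebraMap ℚ ℂ).injective).mp hW
  obtain ⟨n, hn⟩ := IsIntegrallyClosed.isIntegral_iff.mp hri
  have e' : (h' : ℤ) = (h : ℤ) * (ℓ : ℤ) ^ D * (1 + ℓ * n) := by
    have h1 : (h' : ℂ) = (h : ℂ) * (ℓ : ℂ) ^ D * (1 + ℓ * (n : ℂ)) := by
      rw [e, hWr, ← hn]; simp
    exact_mod_cast h1
  have hu : ¬ (ℓ : ℤ) ∣ 1 + ℓ * n := fun hd => by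
    have : (ℓ : ℤ) ∣ 1 := by simpa using dvd_sub hd (dvd_mul_right (ℓ : ℤ) n)
    exact hℓ.ne_one (by exact_mod_cast Int.eq_one_of_dvd_one (Int.natCast_nonneg ℓ) this)
  have e2 : h' = h * ℓ ^ D * (1 + (ℓ : ℤ) * n).natAbs := by
    have := congrArg Int.natAbs e'
    simpa [Int.natAbs_mul, Int.natAbs_pow] using this
  have hu' : ¬ ℓ ∣ (1 + (ℓ : ℤ) * n).natAbs := fun hd => hu (Int.natCast_dvd.mpr hd)
  have hne : (1 + (ℓ : ℤ) * n).natAbs ≠ 0 := fun h0 => hu' (h0 ▸ dvd_zero ℓ)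
  rw [e2, Nat.factorization_mul (Nat.mul_ne_zero hh (pow_ne_zero _ hℓ.ne_zero)) hne,
    Nat.factorization_mul hh (pow_ne_zero _ hℓ.ne_zero), Nat.factorization_pow, Finsupp.add_apply,
    Finsupp.add_apply, Finsupp.smul_apply, hℓ.factorization_self,
    Nat.factorization_eq_zero_of_not_dvd hu']
  simp

section Group

variable {A : Type*} [AddCommGroup A] {ℓ : ℕ}

theorem natCard_eq_pow (hℓ : ℓ.Prime) [Finite A] (h : ∀ x : A, ∃ j, ℓ ^ j • x = 0) :
    ∃ a, Nat.card A = ℓ ^ a := by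
  refine ⟨_, Nat.eq_prime_pow_of_unique_prime_dvd Nat.card_pos.ne' fun {d} hd hdvd => ?_⟩
  haveI := Fact.mk hd
  obtain ⟨x, hx⟩ := exists_prime_addOrderOf_dvd_card' d hdvd
  obtain ⟨j, hj⟩ := h x
  have := addOrderOf_dvd_of_nsmul_eq_zero hj
  rw [hx] at this
  exact (Nat.prime_dvd_prime_iff_eq hd hℓ).mp (hd.dvd_of_dvd_pow this)

/-- The primary component of a finite group has the order of the part of `ℓ`. -/
theorem natCard_primary (hℓ : ℓ.Prime) [Finite A] (P : AddSubgroup A)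
    (hP : ∀ x, x ∈ P ↔ ∃ j, ℓ ^ j • x = 0) :
    Nat.card P = ℓ ^ (Nat.card A).factorization ℓ := by
  obtain ⟨a, ha⟩ := natCard_eq_pow (A := P) hℓ fun x =>
    ((hP x.1).mp x.2).imp fun j hj => Subtype.ext hj
  have hnd : ¬ ℓ ∣ Nat.card (A ⧸ P) := fun hd => by
    haveI := Fact.mk hℓ
    obtain ⟨x, hx⟩ := exists_prime_addOrderOf_dvd_card' ℓ hd
    obtain ⟨x, rfl⟩ := QuotientAddGroup.mk_surjective x
    have h0 : ((ℓ • x : A) : A ⧸ P) = 0 := by
      rw [QuotientAddGroup.mk_nsmul, ← hx]; exact addOrderOf_nsmul_eq_zero _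
    rw [QuotientAddGroup.eq_zero_iff, hP] at h0
    obtain ⟨j, hj⟩ := h0
    rw [← mul_smul, ← pow_succ] at hj
    have : (x : A ⧸ P) = 0 := by rw [QuotientAddGroup.eq_zero_iff, hP]; exact ⟨_, hj⟩
    rw [this, addOrderOf_zero] at hx
    exact hℓ.ne_one hx.symm
  rw [AddSubgroup.card_eq_card_quotient_mul_card_addSubgroup P, ha,
    Nat.factorization_mul Nat.card_pos.ne' (pow_ne_zero _ hℓ.ne_zero), Finsupp.add_apply,
    Nat.factorization_eq_zero_of_not_dvd hnd, Nat.factorization_pow, Finsupp.smul_apply,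
    hℓ.factorization_self]
  simp

variable {Γ : Type*} [Monoid Γ] [DistribMulAction Γ A]

/-- The subgroup of fixed points. -/
def fixSub (γ : Γ) : AddSubgroup A where
  carrier := {x | γ • x = x}
  zero_mem' := smul_zero γ
  add_mem' {a b} ha hb := show γ • (a + b) = a + b by
    rw [smul_add, show γ • a = a from ha, show γ • b = b from hb]
  neg_mem' {a} ha := show γ • (-a) = -a by rw [smul_neg, show γ • a = a from ha]

theorem mem_fixSub {γ : Γ} {x : A} : x ∈ fixSub (A := A) γ ↔ γ • x = x := Iff.rfl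

/-- The `ℓ`-primary fixed points. -/
def primFix (γ : Γ) (ℓ : ℕ) : AddSubgroup A where
  carrier := {x | γ • x = x ∧ ∃ j, ℓ ^ j • x = 0}
  zero_mem' := ⟨smul_zero γ, 0, by simp⟩
  add_mem' := by
    rintro a b ⟨ha, i, hi⟩ ⟨hb, j, hj⟩
    refine ⟨by rw [smul_add, ha, hb], i + j, ?_⟩
    rw [smul_add, pow_add]
    conv_lhs => arg 1; rw [mul_comm, mul_smul, hi, smul_zero]
    rw [mul_smul, hj, smul_zero, zero_add]
  neg_mem' := by
    rintro a ⟨ha, i, hi⟩
    exact ⟨by rw [smul_neg, ha], i, by rw [smul_neg, hi, neg_zero]⟩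

theorem natCard_primFix (hℓ : ℓ.Prime) (γ : Γ) [Finite (fixSub (A := A) γ)] :
    Nat.card (primFix (A := A) γ ℓ) = ℓ ^ (Nat.card (fixSub (A := A) γ)).factorization ℓ := by
  rw [← natCard_primary hℓ ((primFix (A := A) γ ℓ).addSubgroupOf (fixSub γ)) fun x => ?_]
  · exact Nat.card_congr (AddSubgroup.addSubgroupOfEquivOfLe (H := primFix (A := A) γ ℓ)
      (K := fixSub γ) fun x hx => hx.1).toEquiv.symm
  rw [AddSubgroup.mem_addSubgroupOf]
  refine ⟨fun h => h.2.imp fun j hj => Subtype.ext (by simpa using hj), fun ⟨j, hj⟩ =>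
    ⟨x.2, j, by simpa using congrArg Subtype.val hj⟩⟩

theorem nsmul_smul_comm' (γ : Γ) (n : ℕ) (x : A) : γ • n • x = n • γ • x :=
  map_nsmul (DistribSMul.toAddMonoidHom A γ) n x

/-- The step of the growth of the fixed primary torsion. -/
theorem natCard_primFix_pow (γ : Γ)
    (h2 : ∀ x : A, ℓ ^ 2 • x = 0 → γ • x = x) (hdiv : Function.Surjective fun t : A => ℓ • t) :
    Nat.card (primFix (A := A) (γ ^ ℓ) ℓ) =
      Nat.card {t : A // ℓ • t = 0} * Nat.card (primFix (A := A) γ ℓ) := by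
  have hpow : ∀ (i : ℕ) (x : A), γ • x = x → γ ^ i • x = x := fun i x hx => by
    induction i with
    | zero => simp
    | succ i ih => rw [pow_succ, mul_smul, hx, ih]
  have htel : ∀ x : A, ∑ i ∈ range ℓ, γ ^ i • (γ • x - x) = γ ^ ℓ • x - x := fun x => by
    simp only [smul_sub, ← mul_smul, ← pow_succ]
    rw [Finset.sum_range_sub (fun i => γ ^ i • x), pow_zero, one_smul]
  have hmem : ∀ x ∈ primFix (A := A) (γ ^ ℓ) ℓ, ℓ • x ∈ primFix (A := A) γ ℓ := by
    rintro x ⟨hx, n, hn⟩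
    set y := γ • x - x with hy
    have hs : ∑ i ∈ range ℓ, γ ^ i • y = 0 := by rw [htel, hx, sub_self]
    have hly : ∀ j, ℓ ^ j • y = 0 → ℓ • y = 0 := fun j => by
      induction j using Nat.strong_induction_on with
      | _ j ih =>
        intro hj
        match j, hj with
        | 0, hj => rw [pow_zero, one_smul] at hj; rw [hj, smul_zero]
        | 1, hj => rwa [pow_one] at hj
        | j + 2, hj =>
          refine ih (j + 1) (by omega) ?_
          have hfix : γ • (ℓ ^ j • y) = ℓ ^ j • y :=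
            h2 _ (by rw [← mul_smul, ← pow_add, add_comm, hj])
          have := congrArg (ℓ ^ j • ·) hs
          simp only [Finset.smul_sum, smul_zero] at this
          rw [Finset.sum_congr rfl (g := fun _ => ℓ ^ j • y) fun i _ => by
            rw [← nsmul_smul_comm', hpow i _ hfix], Finset.sum_const, card_range, ← mul_smul,
            ← pow_succ'] at this
          exact this
    have hyn : ℓ ^ n • y = 0 := by
      rw [hy, smul_sub, ← nsmul_smul_comm', hn, smul_zero, sub_zero]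
    have h0 := hly n hyn
    rw [hy, smul_sub, ← nsmul_smul_comm', sub_eq_zero] at h0
    exact ⟨h0, n, by rw [smul_comm, hn, smul_zero]⟩
  let f : primFix (A := A) (γ ^ ℓ) ℓ →+ primFix (A := A) γ ℓ :=
    { toFun := fun x => ⟨ℓ • x.1, hmem x.1 x.2⟩
      map_zero' := Subtype.ext (smul_zero _)
      map_add' := fun x y => Subtype.ext (smul_add _ _ _) }
  have hsurj : Function.Surjective f := by
    rintro ⟨z, hz, j, hj⟩
    obtain ⟨x, rfl : ℓ • x = z⟩ := hdiv z
    refine ⟨⟨x, ?_, j + 1, by rw [pow_succ, mul_smul, hj]⟩, rfl⟩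
    have hy : ℓ • (γ • x - x) = 0 := by rw [smul_sub, ← nsmul_smul_comm', hz, sub_self]
    have hfix : γ • (γ • x - x) = γ • x - x := h2 _ (by rw [pow_two, mul_smul, hy, smul_zero])
    rw [← sub_eq_zero, ← htel, Finset.sum_congr rfl fun i _ => hpow i _ hfix, Finset.sum_const,
      card_range, hy]
  have hker : Nat.card f.ker = Nat.card {t : A // ℓ • t = 0} := Nat.card_congr
    { toFun := fun x => ⟨x.1.1, congrArg Subtype.val x.2⟩
      invFun := fun t => ⟨⟨t.1, hpow ℓ t.1 (h2 _ (by rw [pow_two, mul_smul, t.2, smul_zero])), 1,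
        by rw [pow_one]; exact t.2⟩, Subtype.ext t.2⟩
      left_inv := fun x => rfl
      right_inv := fun t => rfl }
  rw [AddSubgroup.card_eq_card_quotient_mul_card_addSubgroup f.ker, hker,
    Nat.card_congr (QuotientAddGroup.quotientKerEquivOfSurjective f hsurj).toEquiv, mul_comm]

theorem exists_pow_fix (g : Γ) (hg : Function.Injective fun x : A => g • x) {n : ℕ}
    [Finite {t : A // n • t = 0}] :
    ∃ m, 0 < m ∧ ∀ x : A, n • x = 0 → g ^ m • x = x := by
  let f : {t : A // n • t = 0} → {t : A // n • t = 0} := fun t =>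
    ⟨g • t.1, by rw [← nsmul_smul_comm', t.2, smul_zero]⟩
  let e := Equiv.ofBijective f
    (Finite.injective_iff_bijective.mp fun a b h => Subtype.ext (hg (congrArg Subtype.val h)))
  have hi : ∀ (i : ℕ) (t : {t : A // n • t = 0}), ((e ^ i) t).1 = g ^ i • t.1 := fun i => by
    induction i with
    | zero => simp
    | succ i ih =>
      intro t
      rw [pow_succ, Equiv.Perm.mul_apply, ih, pow_succ, mul_smul]
      rfl
  refine ⟨orderOf e, orderOf_pos e, fun x hx => ?_⟩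
  rw [← hi _ ⟨x, hx⟩, pow_orderOf_eq_one]
  rfl

end Group

end Fermat.Agent.MCurve.FiniteField
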