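/-
Semilinear Frobenius maps of finite-dimensional spaces: Lang's theorem.
-/
import Mathlib.FieldTheory.IsAlgClosed.Basic
import Mathlib.FieldTheory.Separable
import Mathlib.LinearAlgebra.Dimension.Finrank
import Mathlib.LinearAlgebra.FiniteDimensional.Basic
import Mathlib.LinearAlgebra.Quotient.Basic

set_option autoImplicit false
set_option linter.unusedSectionVars false
set_option linter.style.haveILetI false

noncomputable section

namespace Fermat.Agent.MCurve.FiniteField

open Polynomial

variable {k : Type*} [Field k] [IsAlgClosed k] {q : ℕ}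

theorem separable_of_derivative_eq {f : k[X]} {a : k} (ha : a ≠ 0)
    (h : derivative f = C a) : f.Separable :=
  ⟨0, C a⁻¹, by rw [h, zero_mul, zero_add, ← C_mul, inv_mul_cancel₀ ha, C_1]⟩

theorem natCard_roots_of_separable {f : k[X]} (hf : f ≠ 0) (hsep : f.Separable) :
    Nat.card {x : k // f.eval x = 0} = f.natDegree := by
  classical
  rw [← (IsAlgClosed.card_roots_eq_natDegree (p := f)),
    ← Multiset.toFinset_card_of_nodup (nodup_roots hsep), ← Nat.card_eq_finsetCard]
  exact Nat.card_congr (Equiv.subtypeEquivRight fun x => by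
    simp [mem_roots hf, IsRoot])

theorem natCard_pow_eq_self (hq : 1 < q) (h0 : (q : k) = 0) :
    Nat.card {a : k // a ^ q = a} = q := by
  have hd : derivative (X ^ q - X : k[X]) = C (-1) := by
    simp [derivative_X_pow, h0]
  have hne : (X ^ q - X : k[X]) ≠ 0 := fun h => by
    rw [h, map_zero] at hd
    exact neg_ne_zero.mpr one_ne_zero (C_eq_zero.mp hd.symm)
  have hsep := separable_of_derivative_eq (neg_ne_zero.mpr (one_ne_zero (α := k))) hd
  have hdeg : (X ^ q - X : k[X]).natDegree = q := by
    rw [natDegree_sub_eq_left_of_natDegree_lt, natDegree_X_pow]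
    rw [natDegree_X_pow, natDegree_X]
    exact hq
  refine Eq.trans ?_ ((natCard_roots_of_separable hne hsep).trans hdeg)
  exact Nat.card_congr (Equiv.subtypeEquivRight fun x => by simp [sub_eq_zero])

theorem exists_pow_eq_add (hq : 1 < q) (b : k) : ∃ x : k, x ^ q = x + b := by
  have hdeg : (X ^ q - X - C b : k[X]).degree = q := by
    rw [sub_sub, degree_sub_eq_left_of_degree_lt, degree_X_pow]
    rw [degree_X_add_C, degree_X_pow]
    exact_mod_cast hq
  obtain ⟨x, hx⟩ := IsAlgClosed.exists_root (X ^ q - X - C b : k[X])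
    (by rw [hdeg]; exact_mod_cast (by omega : q ≠ 0))
  refine ⟨x, ?_⟩
  simp only [IsRoot, eval_sub, eval_pow, eval_X, eval_C] at hx
  linear_combination hx

variable {V : Type*} [AddCommGroup V] [Module k V] {φ : V →+ V}

/-- The coefficient of the candidate fixed vector as a polynomial in the last one. -/
def langPoly (q : ℕ) (c : ℕ → k) : ℕ → k[X]
  | 0 => C (c 0) * X ^ q
  | i + 1 => langPoly q c i ^ q + C (c (i + 1)) * X ^ q

theorem derivative_langPoly (h0 : (q : k) = 0) (c : ℕ → k) (i : ℕ) :
    derivative (langPoly q c i) = 0 := by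
  induction i with
  | zero => simp [langPoly, derivative_X_pow, h0]
  | succ i ih => simp [langPoly, derivative_pow, h0, ih]

theorem natDegree_langPoly (hq : 1 < q) {c : ℕ → k} (hc : c 0 ≠ 0) (i : ℕ) :
    (langPoly q c i).natDegree = q ^ (i + 1) := by
  induction i with
  | zero => simp [langPoly, natDegree_C_mul_X_pow q (c 0) hc]
  | succ i ih =>
    have h1 : (langPoly q c i ^ q).natDegree = q ^ (i + 2) := by rw [natDegree_pow, ih]; ring
    rw [langPoly, natDegree_add_eq_left_of_natDegree_lt, h1]
    rw [h1]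
    refine lt_of_le_of_lt (natDegree_C_mul_X_pow_le _ _) ?_
    calc q = q ^ 1 := (pow_one q).symm
      _ < q ^ (i + 2) := Nat.pow_lt_pow_right hq (by omega)

variable [FiniteDimensional k V]

theorem exists_fixed_ne_zero (hq : 1 < q) (h0 : (q : k) = 0) (hinj : Function.Injective φ)
    (hsl : ∀ (a : k) (v : V), φ (a • v) = a ^ q • φ v) [Nontrivial V] :
    ∃ w : V, w ≠ 0 ∧ φ w = w := by
  classical
  obtain ⟨v, hv⟩ := exists_ne (0 : V)
  let p : ℕ → V := fun i => φ^[i] v
  have hp : ∀ i, φ (p i) = p (i + 1) := fun i => (Function.iterate_succ_apply' φ i v).symm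
  have hex : ∃ r, p r ∈ Submodule.span k (p '' Set.Iio r) := by
    by_contra hall
    push Not at hall
    have hli : ∀ r, LinearIndepOn k p (Set.Iio r) := fun r => by
      induction r with
      | zero => rw [show Set.Iio 0 = (∅ : Set ℕ) from Set.Iio_eq_empty_iff.mpr isMin_bot]; exact linearIndepOn_empty _ _
      | succ r ih =>
        rw [show Set.Iio (r + 1) = insert r (Set.Iio r) from by ext; simp]
        exact (linearIndepOn_insert (by simp)).mpr ⟨ih, hall r⟩
    have := ((hli (Module.finrank k V + 1)).linearIndependent.comp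
      (fun i : Fin (Module.finrank k V + 1) => (⟨i, i.2⟩ : Set.Iio (Module.finrank k V + 1)))
      fun i j h => Fin.ext (congrArg (fun x : Set.Iio _ => (x : ℕ)) h)).fintype_card_le_finrank
    simp at this
  have hr := Nat.find_spec hex
  have hli : ∀ r ≤ Nat.find hex, LinearIndepOn k p (Set.Iio r) := fun r hle => by
    induction r with
    | zero => rw [show Set.Iio 0 = (∅ : Set ℕ) from Set.Iio_eq_empty_iff.mpr isMin_bot]; exact linearIndepOn_empty _ _
    | succ r ih =>
      rw [show Set.Iio (r + 1) = insert r (Set.Iio r) from by ext; simp]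
      exact (linearIndepOn_insert (by simp)).mpr ⟨ih (by omega), Nat.find_min hex (by omega)⟩
  obtain ⟨r, hr0⟩ : ∃ r, Nat.find hex = r + 1 := Nat.exists_eq_succ_of_ne_zero fun h => by
    rw [h] at hr
    simp [p] at hr
    exact hv hr
  rw [hr0] at hr hli
  have hli' : LinearIndependent k fun i : Fin (r + 1) => p i :=
    (hli (r + 1) le_rfl).linearIndependent.comp (fun i : Fin (r + 1) => (⟨i, i.2⟩ : Set.Iio (r + 1)))
      fun i j h => Fin.ext (congrArg (fun x : Set.Iio (r + 1) => (x : ℕ)) h)
  have himg : p '' Set.Iio (r + 1) = Set.range fun i : Fin (r + 1) => p i := by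
    ext x
    constructor
    · rintro ⟨i, hi, rfl⟩; exact ⟨⟨i, hi⟩, rfl⟩
    · rintro ⟨i, rfl⟩; exact ⟨i, i.2, rfl⟩
  rw [himg, Submodule.mem_span_range_iff_exists_fun] at hr
  obtain ⟨c, hc⟩ := hr
  let c' : ℕ → k := fun i => if h : i < r + 1 then c ⟨i, h⟩ else 0
  have hcc : ∀ i : Fin (r + 1), c' i = c i := fun i => dif_pos i.2
  have hsum : ∀ x : ℕ → k, φ (∑ i : Fin (r + 1), x i • p i) =
      x r ^ q • p (r + 1) + ∑ i : Fin r, x i ^ q • p ((i : ℕ) + 1) := fun x => by
    rw [map_sum, Fin.sum_univ_castSucc, add_comm]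
    simp [hsl, hp]
  have hc0 : c' 0 ≠ 0 := fun h => by
    obtain ⟨y, hy⟩ : ∃ y ∈ Submodule.span k (p '' Set.Iio r), φ y = φ (p r) := by
      have hroot : ∀ a : k, ∃ x : k, x ^ q = a := fun a => IsAlgClosed.exists_pow_nat_eq a (by omega)
      choose s hs using hroot
      refine ⟨∑ i : Fin r, s (c' (i + 1)) • p i,
        sum_mem fun i _ => Submodule.smul_mem _ _ (Submodule.subset_span ⟨i, i.2, rfl⟩), ?_⟩
      rw [map_sum, hp, ← hc, Fin.sum_univ_succ]
      have h' : c 0 = 0 := by rw [← hcc 0]; exact h
      rw [h', zero_smul, zero_add]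
      refine Finset.sum_congr rfl fun i _ => ?_
      rw [hsl, hs, hp, ← Fin.val_succ, hcc]
    exact Nat.find_min hex (by omega : r < Nat.find hex) (hinj hy.2 ▸ hy.1)
  set f := langPoly q c' r - X with hf
  have hd : derivative f = C (-1) := by
    rw [hf, derivative_sub, derivative_langPoly h0, derivative_X, zero_sub, map_neg, C_1]
  have hdeg : f.natDegree = q ^ (r + 1) := by
    rw [hf, natDegree_sub_eq_left_of_natDegree_lt, natDegree_langPoly hq hc0]
    rw [natDegree_langPoly hq hc0, natDegree_X]
    exact Nat.one_lt_pow (by omega) hq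
  have hf0 : f ≠ 0 := fun h => by
    rw [h, natDegree_zero] at hdeg
    exact absurd hdeg.symm (pow_ne_zero _ (by omega))
  have hcard := natCard_roots_of_separable hf0
    (separable_of_derivative_eq (neg_ne_zero.mpr (one_ne_zero (α := k))) hd)
  rw [hdeg] at hcard
  obtain ⟨T, hT, hT0⟩ : ∃ T, f.eval T = 0 ∧ T ≠ 0 := by
    by_contra hall
    push Not at hall
    haveI : Subsingleton {x : k // f.eval x = 0} :=
      ⟨fun a b => Subtype.ext ((hall a a.2).trans (hall b b.2).symm)⟩
    have h1 : 1 < q ^ (r + 1) := Nat.one_lt_pow (by omega) hq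
    have h2 := Finite.card_le_one_iff_subsingleton.mpr this
    omega
  set x : ℕ → k := fun i => (langPoly q c' i).eval T with hx
  have hxr : x r = T := by
    simp only [hf, eval_sub, eval_X, sub_eq_zero] at hT
    exact hT
  refine ⟨∑ i : Fin (r + 1), x i • p i, fun h => hT0 ?_, ?_⟩
  · rw [← hxr, ← Fin.val_last r]
    exact Fintype.linearIndependent_iff.mp hli' (fun i => x i) h (Fin.last r)
  · rw [hsum, ← hc, Finset.smul_sum, Fin.sum_univ_succ, Fin.sum_univ_succ, add_assoc,
      ← Finset.sum_add_distrib]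
    congr 1
    · rw [smul_smul, ← hcc, hxr]
      refine congrArg (· • p _) ?_
      simp only [hx, Fin.val_zero, langPoly, eval_mul, eval_pow, eval_C, eval_X]
      ring
    · refine Finset.sum_congr rfl fun i _ => ?_
      rw [smul_smul, ← hcc, Fin.val_succ, ← add_smul, hxr]
      refine congrArg (· • p _) ?_
      simp only [hx, langPoly, eval_add, eval_mul, eval_pow, eval_C, eval_X]
      ring

/-- Lang's theorem. -/
theorem span_fixed_eq_top (hq : 1 < q) (h0 : (q : k) = 0) (hinj : Function.Injective φ)
    (hsl : ∀ (a : k) (v : V), φ (a • v) = a ^ q • φ v) :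
    Submodule.span k {v | φ v = v} = ⊤ := by
  set S := Submodule.span k {v | φ v = v} with hS
  by_contra hne
  have hinv : ∀ v ∈ S, φ v ∈ S := fun v hv => by
    induction hv using Submodule.span_induction with
    | mem v hv => rw [show φ v = v from hv]; exact Submodule.subset_span hv
    | zero => simp
    | add a b _ _ ha hb => rw [map_add]; exact add_mem ha hb
    | smul a v _ hv => rw [hsl]; exact Submodule.smul_mem _ _ hv
  haveI : Nontrivial (V ⧸ S) := Submodule.Quotient.nontrivial_iff.mpr hne
  let ψ : V ⧸ S →+ V ⧸ S :=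
    QuotientAddGroup.map S.toAddSubgroup S.toAddSubgroup φ fun v hv => hinv v hv
  have hψ : ∀ v, ψ (Submodule.Quotient.mk v) = Submodule.Quotient.mk (φ v) := fun v => rfl
  have hpre : ∀ v, φ v ∈ S → v ∈ S := fun v hv => by
    have : ∀ w ∈ S, ∃ y ∈ S, φ y = w := fun w hw => by
      induction hw using Submodule.span_induction with
      | mem w hw => exact ⟨w, Submodule.subset_span hw, hw⟩
      | zero => exact ⟨0, zero_mem _, map_zero _⟩
      | add a b _ _ ha hb =>
        obtain ⟨y, hy, rfl⟩ := ha
        obtain ⟨z, hz, rfl⟩ := hb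
        exact ⟨y + z, add_mem hy hz, map_add _ _ _⟩
      | smul a w _ hw =>
        obtain ⟨y, hy, rfl⟩ := hw
        obtain ⟨s, rfl⟩ := IsAlgClosed.exists_pow_nat_eq a (by omega : 0 < q)
        exact ⟨s • y, Submodule.smul_mem _ _ hy, hsl _ _⟩
    obtain ⟨y, hy, e⟩ := this _ hv
    exact hinj e ▸ hy
  obtain ⟨w, hw0, hw⟩ := exists_fixed_ne_zero (φ := ψ) hq h0
    ((injective_iff_map_eq_zero ψ).mpr fun w => by
      obtain ⟨v, rfl⟩ := Submodule.Quotient.mk_surjective S w
      rw [hψ, Submodule.Quotient.mk_eq_zero, Submodule.Quotient.mk_eq_zero]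
      exact hpre v)
    (fun a w => by
      obtain ⟨v, rfl⟩ := Submodule.Quotient.mk_surjective S w
      rw [← Submodule.Quotient.mk_smul, hψ, hψ, hsl, Submodule.Quotient.mk_smul])
  obtain ⟨u, rfl⟩ := Submodule.Quotient.mk_surjective S w
  rw [hψ, Submodule.Quotient.eq] at hw
  -- correct the lift
  have hfix : ∀ d ∈ S, ∃ y ∈ S, φ y - y = d := fun d hd => by
    induction hd using Submodule.span_induction with
    | mem d hd =>
      obtain ⟨b, hb⟩ := exists_pow_eq_add hq (1 : k)
      exact ⟨b • d, Submodule.smul_mem _ _ (Submodule.subset_span hd), by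
        rw [hsl, show φ d = d from hd, hb, add_smul, one_smul, add_sub_cancel_left]⟩
    | zero => exact ⟨0, zero_mem _, by simp⟩
    | add a b _ _ ha hb =>
      obtain ⟨y, hy, rfl⟩ := ha
      obtain ⟨z, hz, rfl⟩ := hb
      exact ⟨y + z, add_mem hy hz, by rw [map_add]; abel⟩
    | smul a d hd' hd =>
      clear hd
      induction hd' using Submodule.span_induction generalizing a with
      | mem d hd =>
        obtain ⟨b, hb⟩ := exists_pow_eq_add hq a
        exact ⟨b • d, Submodule.smul_mem _ _ (Submodule.subset_span hd), by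
          rw [hsl, show φ d = d from hd, hb, add_smul, add_sub_cancel_left]⟩
      | zero => exact ⟨0, zero_mem _, by simp⟩
      | add c e _ _ hc he =>
        obtain ⟨y, hy, e1⟩ := hc a
        obtain ⟨z, hz, e2⟩ := he a
        exact ⟨y + z, add_mem hy hz, by rw [map_add, smul_add, ← e1, ← e2]; abel⟩
      | smul c e _ he => rw [smul_smul]; exact he (a * c)
  obtain ⟨y, hy, e⟩ := hfix _ hw
  apply hw0
  rw [Submodule.Quotient.mk_eq_zero]
  have : φ (u - y) = u - y := by rw [map_sub, show φ u = φ y - y + u by rw [e]; abel]; abel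
  have h2 := add_mem (Submodule.subset_span this : u - y ∈ S) hy
  rwa [sub_add_cancel] at h2

/-- The fixed vectors are the rational combinations of a basis of fixed vectors. -/
theorem natCard_fixed (hq : 1 < q) (h0 : (q : k) = 0) (hinj : Function.Injective φ)
    (hsl : ∀ (a : k) (v : V), φ (a • v) = a ^ q • φ v) :
    Nat.card {v : V // φ v = v} = q ^ Module.finrank k V := by
  obtain ⟨B, hBs, hspan, hli⟩ := exists_linearIndependent k {v : V | φ v = v}
  rw [span_fixed_eq_top hq h0 hinj hsl] at hspan
  let b := Module.Basis.mk hli (by simp [hspan])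
  haveI := hli.finite
  haveI := Fintype.ofFinite B
  have hb : ∀ i, φ (b i) = b i := fun i => by
    simp only [b, Module.Basis.mk_apply]
    exact hBs i.2
  have hrep : ∀ (v : V) (i : B), b.repr (φ v) i = b.repr v i ^ q := fun v i => by
    conv_lhs => rw [← b.sum_repr v, map_sum]
    simp only [hsl, hb, Module.Basis.repr_sum_self]
  let e : {v : V // φ v = v} ≃ (B → {a : k // a ^ q = a}) :=
    { toFun := fun v i => ⟨b.repr v.1 i, by rw [← hrep, v.2]⟩
      invFun := fun a => ⟨∑ i, (a i).1 • b i, by simp [map_sum, hsl, hb, (a _).2]⟩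
      left_inv := fun v => Subtype.ext (b.sum_repr v.1)
      right_inv := fun a => funext fun i => Subtype.ext (by simp only [Module.Basis.repr_sum_self]) }
  rw [Nat.card_congr e, Nat.card_fun, natCard_pow_eq_self hq h0,
    Module.finrank_eq_nat_card_basis b]

end Fermat.Agent.MCurve.FiniteField
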