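/-
Fixed divisors and classes of a Frobenius of a curve.
-/
import Fermat.Agent.MCurve.T27.Frobenius.Lang
import Fermat.Agent.MCurve.MW.Points
import Fermat.Prelude.Def_AlgebraicCurve_BaseChangeGalois

set_option autoImplicit false
set_option linter.unusedSectionVars false
set_option linter.style.haveILetI false

noncomputable section

namespace Fermat.Agent.MCurve.FiniteField

open AlgebraicCurve RR Fermat.Agent.MCurve.MW
open scoped Classical

variable {k F : Type*} [Field k] [Field F] [Algebra k F] [IsAlgClosed k]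
  [∀ v : Place k F, v.FiniteResidue] [HasPrincipalDivisors k F] [Nonempty (Place k F)]

/-- A Frobenius of a curve fixing the point at infinity. -/
structure Frob (X : Setup k F) (q : ℕ) where
  /-- The semilinear automorphism. -/
  g : SemilinearAut k F
  base : ∀ a : k, SemilinearAut.baseAut g a = a ^ q
  inf : g • X.inf = X.inf
  one_lt : 1 < q
  cast_zero : (q : k) = 0

variable {X : Setup k F} {q : ℕ} (Φ : Frob X q)

theorem Frob.base_pow (m : ℕ) (a : k) : SemilinearAut.baseAut (Φ.g ^ m) a = a ^ q ^ m := by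
  induction m generalizing a with
  | zero => simp
  | succ m ih =>
    rw [pow_succ, SemilinearAut.baseAut_mul]
    show SemilinearAut.baseAut (Φ.g ^ m) (SemilinearAut.baseAut Φ.g a) = _
    rw [Φ.base, ih, ← pow_mul, pow_succ, mul_comm]

theorem Frob.inf_pow (m : ℕ) : Φ.g ^ m • X.inf = X.inf := by
  induction m with
  | zero => simp
  | succ m ih => rw [pow_succ, mul_smul, Φ.inf, ih]

/-- A power of a Frobenius. -/
def Frob.pow (m : ℕ) (hm : 0 < m) : Frob X (q ^ m) where
  g := Φ.g ^ m
  base := Φ.base_pow m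
  inf := Φ.inf_pow m
  one_lt := Nat.one_lt_pow hm.ne' Φ.one_lt
  cast_zero := by rw [Nat.cast_pow, Φ.cast_zero, zero_pow hm.ne']

/-- The automorphism of the function field. -/
def Frob.σ : F ≃+* F := SemilinearAut.toRingAut Φ.g

theorem Frob.σ_algebraMap (a : k) : Φ.σ (algebraMap k F a) = algebraMap k F (a ^ q) := by
  rw [Frob.σ, SemilinearAut.commutes, Φ.base]

theorem Frob.σ_smul (a : k) (x : F) : Φ.σ (a • x) = a ^ q • Φ.σ x := by
  rw [Algebra.smul_def, map_mul, Φ.σ_algebraMap, ← Algebra.smul_def]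

theorem Frob.ord_σ (v : Place k F) (x : F) : (Φ.g • v).ord (Φ.σ x) = v.ord x :=
  SemilinearAut.ord_smul Φ.g v x

theorem Frob.divOf_σ (x : F) : divOf k (Φ.σ x) = Φ.g • divOf k x := Finsupp.ext fun v => by
  rw [SemilinearAut.divisor_smul_apply, divOf_apply, divOf_apply]
  conv_lhs => rw [← smul_inv_smul Φ.g v]
  exact Φ.ord_σ _ x

theorem Frob.smul_single_inf (n : ℤ) :
    Φ.g • Finsupp.single X.inf n = Finsupp.single X.inf n := by
  rw [SemilinearAut.smul_single, Φ.inf]

theorem smul_nonneg_divisor (g : SemilinearAut k F) {D : Divisor k F} (h : 0 ≤ D) : 0 ≤ g • D :=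
  Finsupp.le_def.mpr fun v => by
    rw [SemilinearAut.divisor_smul_apply]; exact Finsupp.le_def.mp h _

theorem Frob.σ_mem_space {D : Divisor k F} {x : F} (hx : x ∈ riemannRochSpace D) :
    Φ.σ x ∈ riemannRochSpace (Φ.g • D) := by
  rcases eq_or_ne x 0 with rfl | h0
  · simp
  have h1 : Φ.σ x ≠ 0 := (map_ne_zero _).mpr h0
  rw [mem_space_iff_of_ne h1, Φ.divOf_σ, ← smul_add]
  exact smul_nonneg_divisor _ ((mem_space_iff_of_ne h0).mp hx)

/-! ## Twisted Frobenius on a space -/

/-- The semilinear map of a space whose divisor is moved within its class. -/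
def Frob.twist {D : Divisor k F} {f : F} (hf : f ≠ 0) (h : Φ.g • D = D + divOf k f) :
    riemannRochSpace D →+ riemannRochSpace D where
  toFun x := ⟨f * Φ.σ x, (mem_space_divOf hf).mp (h ▸ Φ.σ_mem_space x.2)⟩
  map_zero' := by ext; simp
  map_add' x y := by ext; simp [mul_add]

theorem Frob.twist_injective {D : Divisor k F} {f : F} (hf : f ≠ 0)
    (h : Φ.g • D = D + divOf k f) : Function.Injective (Φ.twist hf h) := fun x y e => by
  have := congrArg Subtype.val e
  simp only [Frob.twist, AddMonoidHom.coe_mk, ZeroHom.coe_mk] at this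
  exact Subtype.ext (Φ.σ.injective (mul_left_cancel₀ hf this))

theorem Frob.twist_smul {D : Divisor k F} {f : F} (hf : f ≠ 0) (h : Φ.g • D = D + divOf k f)
    (a : k) (x : riemannRochSpace D) : Φ.twist hf h (a • x) = a ^ q • Φ.twist hf h x := by
  ext
  simp [Frob.twist, Φ.σ_smul]

theorem Frob.natCard_twist_fixed {D : Divisor k F} {f : F} (hf : f ≠ 0)
    (h : Φ.g • D = D + divOf k f) :
    Nat.card {x : riemannRochSpace D // Φ.twist hf h x = x} = q ^ ell D :=
  natCard_fixed Φ.one_lt Φ.cast_zero (Φ.twist_injective hf h) (Φ.twist_smul hf h)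

/-! ## Classes -/

/-- The class of a divisor, shifted to degree zero at infinity. -/
def cls (X : Setup k F) (D : Divisor k F) : Pic0 k F :=
  Pic0.mk ⟨D - Finsupp.single X.inf (Divisor.degree D), by
    rw [Divisor.mem_degZero, map_sub, Divisor.degree_single, deg_one, Nat.cast_one, mul_one,
      sub_self]⟩

theorem cls_eq_iff {D D' : Divisor k F} (h : Divisor.degree D = Divisor.degree D') :
    cls X D = cls X D' ↔ D' - D ∈ Divisor.principal (K := k) (F := F) := by
  rw [cls, cls, Pic0.mk, Pic0.mk, QuotientAddGroup.eq, AddSubgroup.mem_addSubgroupOf,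
    AddSubgroup.coe_add, AddSubgroup.coe_neg]
  refine iff_of_eq (congrArg (· ∈ _) ?_)
  show -(D - _) + (D' - _) = _
  rw [h]
  abel

theorem Frob.smul_cls (D : Divisor k F) : Φ.g • cls X D = cls X (Φ.g • D) := by
  rw [cls, cls, SemilinearAut.pic0_smul_mk]
  congr 1
  refine Subtype.ext ?_
  rw [SemilinearAut.coe_degZeroSMulHom]
  show Φ.g • (D - _) = _
  rw [smul_sub, Φ.smul_single_inf]
  exact congrArg (fun d => Φ.g • D - Finsupp.single X.inf d) (SemilinearAut.degree_smul _ _).symm

/-- A representative of a class in degree `n`. -/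
def rep (X : Setup k F) (n : ℕ) (c : Pic0 k F) : Divisor k F :=
  ((Pic0.mk_surjective c).choose : Divisor k F) + Finsupp.single X.inf (n : ℤ)

theorem degree_rep (n : ℕ) (c : Pic0 k F) : Divisor.degree (rep X n c) = n := by
  rw [rep, map_add, Divisor.mem_degZero.mp (Pic0.mk_surjective c).choose.2, zero_add,
    Divisor.degree_single, deg_one]
  simp

theorem cls_rep (n : ℕ) (c : Pic0 k F) : cls X (rep X n c) = c := by
  refine Eq.trans ?_ (Pic0.mk_surjective c).choose_spec
  rw [cls]
  congr 1
  refine Subtype.ext ?_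
  show rep X n c - Finsupp.single X.inf (Divisor.degree (rep X n c)) = _
  rw [degree_rep, rep, add_sub_cancel_right]

/-- The dimension of the sections of a class in degree `n`. -/
def ellc (X : Setup k F) (n : ℕ) (c : Pic0 k F) : ℕ := ell (rep X n c)

theorem ell_eq_ellc {n : ℕ} {D : Divisor k F} (hD : Divisor.degree D = n) :
    ell D = ellc X n (cls X D) := by
  refine ell_eq_of_principal ((cls_eq_iff (X := X) (by rw [degree_rep, hD])).mp ?_)
  rw [cls_rep]

/-! ## Effective fixed divisors -/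

/-- The fixed effective divisors of degree `n`. -/
def Frob.eff (n : ℕ) : Set (Divisor k F) :=
  {D | 0 ≤ D ∧ Divisor.degree D = n ∧ Φ.g • D = D}

/-- The fixed effective divisors of degree `n` in a class. -/
def Frob.effIn (n : ℕ) (c : Pic0 k F) : Set (Divisor k F) := {D | D ∈ Φ.eff n ∧ cls X D = c}

theorem Frob.exists_mem_effIn {n : ℕ} {c : Pic0 k F} (hc : Φ.g • c = c) (h : 0 < ellc X n c) :
    ∃ D, D ∈ Φ.effIn n c := by
  set R := rep X n c with hR
  have hmem : Φ.g • R - R ∈ Divisor.principal (K := k) (F := F) := by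
    refine (cls_eq_iff (X := X) (SemilinearAut.degree_smul Φ.g R).symm).mp ?_
    rw [← Φ.smul_cls, cls_rep, hc]
  obtain ⟨f, hf, he⟩ := hmem
  have hgR : Φ.g • R = R + divOf k f := Finsupp.ext fun v => by
    have := he v; rw [Finsupp.sub_apply] at this; rw [Finsupp.add_apply, divOf_apply]; omega
  have hcard := Φ.natCard_twist_fixed hf hgR
  have h1 : 1 < Nat.card {x : riemannRochSpace R // Φ.twist hf hgR x = x} := by
    rw [hcard]; exact Nat.one_lt_pow h.ne' Φ.one_lt
  haveI : Finite {x : riemannRochSpace R // Φ.twist hf hgR x = x} :=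
    Nat.finite_of_card_ne_zero (by omega)
  haveI : Nontrivial {x : riemannRochSpace R // Φ.twist hf hgR x = x} :=
    Finite.one_lt_card_iff_nontrivial.mp h1
  obtain ⟨⟨x, hx⟩, hx0⟩ := exists_ne (⟨0, map_zero _⟩ : {x : riemannRochSpace R // Φ.twist hf hgR x = x})
  have hx0' : (x : F) ≠ 0 := fun h0 => hx0 (Subtype.ext (Subtype.ext h0))
  refine ⟨R + divOf k (x : F), ⟨(mem_space_iff_of_ne hx0').mp x.2, ?_, ?_⟩, ?_⟩
  · rw [map_add, degree_divOf, hR, degree_rep, add_zero]
  · have hx' : f * Φ.σ x = x := congrArg Subtype.val hx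
    have h2 : Φ.σ (x : F) ≠ 0 := (map_ne_zero _).mpr hx0'
    rw [smul_add, hgR, ← Φ.divOf_σ, add_assoc, ← divOf_mul hf h2, hx']
  · rw [← cls_rep (X := X) n c, cls_eq_iff (by rw [map_add, degree_divOf, add_zero])]
    exact ⟨(x : F)⁻¹, inv_ne_zero hx0', fun v => by simp [divOf_apply, v.ord_inv, ← hR]⟩

theorem natCard_ne_add_one {α : Type*} [Finite α] (p : α) :
    Nat.card {x : α // x ≠ p} + 1 = Nat.card α := by
  haveI := Fintype.ofFinite α
  rw [Nat.card_eq_fintype_card, Nat.card_eq_fintype_card, Fintype.card_subtype_compl,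
    Fintype.card_subtype_eq]
  exact Nat.sub_add_cancel (Fintype.card_pos_iff.mpr ⟨p⟩)

/-- The number of fixed effective divisors in a class. -/
theorem Frob.natCard_effIn {n : ℕ} {c : Pic0 k F} (hc : Φ.g • c = c) :
    ((q : ℤ) - 1) * Nat.card (Φ.effIn n c) = (q : ℤ) ^ ellc X n c - 1 := by
  rcases Set.eq_empty_or_nonempty (Φ.effIn n c) with h | ⟨D₀, hD₀⟩
  · have h0 : ellc X n c = 0 := by
      by_contra hne
      obtain ⟨D, hD⟩ := Φ.exists_mem_effIn hc (Nat.pos_of_ne_zero hne)
      rw [h] at hD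
      exact hD
    simp [h, h0]
  obtain ⟨⟨h0, hdeg, hfix⟩, hcls⟩ := hD₀
  have hell : ell D₀ = ellc X n c := by rw [ell_eq_ellc (X := X) hdeg, hcls]
  have htw : Φ.g • D₀ = D₀ + divOf k (1 : F) := by
    rw [hfix]
    ext v
    simp [divOf_apply]
  set T := {x : riemannRochSpace D₀ // Φ.twist one_ne_zero htw x = x}
  have hTcard : Nat.card T = q ^ ell D₀ := Φ.natCard_twist_fixed one_ne_zero htw
  haveI : Finite T := Nat.finite_of_card_ne_zero (by
    rw [hTcard]; exact pow_ne_zero _ (by have := Φ.one_lt; omega))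
  let z : T := ⟨0, map_zero _⟩
  let C := {a : k // a ^ q = a}
  haveI : Finite C := Nat.finite_of_card_ne_zero (by
    rw [natCard_pow_eq_self Φ.one_lt Φ.cast_zero]; have := Φ.one_lt; omega)
  let o : C := ⟨0, zero_pow (by have := Φ.one_lt; omega)⟩
  have hlift : ∀ D : Φ.effIn n c, ∃ x : T, x ≠ z ∧ D₀ + divOf k (x.1 : F) = D.1 := by
    rintro ⟨D, ⟨hD0, hDdeg, hDfix⟩, hDcls⟩
    obtain ⟨f, hf, he⟩ := (cls_eq_iff (X := X) (D := D₀) (D' := D) (by rw [hdeg, hDdeg])).mp
      (by rw [hcls, hDcls])
    have hdiv : D₀ + divOf k f = D := Finsupp.ext fun v => by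
      have := he v; rw [Finsupp.sub_apply] at this; rw [Finsupp.add_apply, divOf_apply]; omega
    have hσ : divOf k (Φ.σ f) = divOf k f := by
      rw [Φ.divOf_σ]
      have := congrArg (Φ.g • ·) hdiv
      simp only [smul_add, hfix, hDfix] at this
      rw [← hdiv] at this
      exact add_left_cancel this
    have hσ0 : Φ.σ f ≠ 0 := (map_ne_zero _).mpr hf
    obtain ⟨a, ha⟩ := exists_const_of_regular X.f_fin (f := Φ.σ f / f) (mem_space_iff.mpr
      (Or.inr fun v => by
        have := congrArg (fun E : Divisor k F => E v) hσ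
        simp only [divOf_apply] at this
        rw [div_eq_mul_inv, v.ord_mul hσ0 (inv_ne_zero hf), v.ord_inv, Finsupp.zero_apply]
        omega))
    have ha0 : a ≠ 0 := fun h => by
      rw [h, map_zero, eq_comm, div_eq_zero_iff] at ha
      exact ha.elim hσ0 hf
    obtain ⟨b, hb⟩ := IsAlgClosed.exists_pow_nat_eq a⁻¹
      (show 0 < q - 1 by have := Φ.one_lt; omega)
    have hb0 : b ≠ 0 := fun h => by
      rw [h, zero_pow (by have := Φ.one_lt; omega), eq_comm, inv_eq_zero] at hb
      exact ha0 hb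
    have hσf : Φ.σ f = a • f := by
      rw [Algebra.smul_def, ha, div_mul_cancel₀ _ hf]
    have hdb : divOf k (b • f) = divOf k f := Finsupp.ext fun v => by
      rw [divOf_apply, divOf_apply, ord_smul_const v hb0]
    have hmem : b • f ∈ riemannRochSpace D₀ := Submodule.smul_mem _ _ (by
      rw [mem_space_iff_of_ne hf, hdiv]; exact hD0)
    refine ⟨⟨⟨b • f, hmem⟩, Subtype.ext ?_⟩, fun h => ?_, by rw [hdb, hdiv]⟩
    · show 1 * Φ.σ (b • f) = b • f
      rw [one_mul, Φ.σ_smul, hσf, smul_smul,
        show q = q - 1 + 1 by have := Φ.one_lt; omega, pow_succ, hb]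
      field_simp
    · exact smul_ne_zero hb0 hf (congrArg (fun x : T => (x.1 : F)) h)
  choose x hx0 hx using hlift
  let Ψ : Φ.effIn n c × {a : C // a ≠ o} → {t : T // t ≠ z} := fun Da =>
    ⟨⟨(Da.2.1.1 : k) • (x Da.1).1, by
      rw [Φ.twist_smul, (x Da.1).2, Da.2.1.2]⟩, fun h => by
      have h1 := congrArg (fun t : T => t.1) h
      simp only [z, smul_eq_zero] at h1
      rcases h1 with h1 | h1
      · exact Da.2.2 (Subtype.ext h1)
      · exact hx0 Da.1 (Subtype.ext h1)⟩
  have hxne : ∀ D, ((x D).1 : F) ≠ 0 := fun D h => hx0 D (Subtype.ext (Subtype.ext h))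
  have hΨ : Function.Bijective Ψ := by
    constructor
    · rintro ⟨D, ⟨a, ha⟩⟩ ⟨D', ⟨a', ha'⟩⟩ e
      have e1 : a.1 • ((x D).1 : F) = a'.1 • ((x D').1 : F) :=
        congrArg (fun t : {t : T // t ≠ z} => (t.1.1 : F)) e
      have ha0 : a.1 ≠ 0 := fun h => ha (Subtype.ext h)
      have ha0' : a'.1 ≠ 0 := fun h => ha' (Subtype.ext h)
      have hDD : D = D' := by
        refine Subtype.ext ?_
        rw [← hx D, ← hx D']
        congr 1
        ext v
        have := congrArg (fun y => v.ord y) e1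
        simp only [ord_smul_const v ha0, ord_smul_const v ha0'] at this
        rw [divOf_apply, divOf_apply, this]
      subst hDD
      exact Prod.ext rfl (Subtype.ext (Subtype.ext (smul_left_injective k (hxne D) e1)))
    · rintro ⟨⟨y, hy⟩, hy0⟩
      have hyne : (y : F) ≠ 0 := fun h => hy0 (Subtype.ext (Subtype.ext h))
      have hyσ : Φ.σ y = y := by
        have := congrArg Subtype.val hy
        simpa [Frob.twist] using this
      let D : Φ.effIn n c := ⟨D₀ + divOf k (y : F),
        ⟨(mem_space_iff_of_ne hyne).mp y.2, by rw [map_add, degree_divOf, hdeg, add_zero],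
          by rw [smul_add, hfix, ← Φ.divOf_σ, hyσ]⟩, by
        rw [← hcls, cls_eq_iff (by rw [map_add, degree_divOf, add_zero])]
        exact ⟨(y : F)⁻¹, inv_ne_zero hyne, fun v => by simp [divOf_apply, v.ord_inv]⟩⟩
      have hdiv : divOf k ((x D).1 : F) = divOf k (y : F) := add_left_cancel (hx D)
      obtain ⟨a, ha⟩ := exists_const_of_regular X.f_fin (f := (y : F) / (x D).1) (mem_space_iff.mpr
        (Or.inr fun v => by
          have := congrArg (fun E : Divisor k F => E v) hdiv
          simp only [divOf_apply] at this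
          rw [div_eq_mul_inv, v.ord_mul hyne (inv_ne_zero (hxne D)), v.ord_inv, Finsupp.zero_apply]
          omega))
      have hay : a • ((x D).1 : F) = y := by
        rw [Algebra.smul_def, ha, div_mul_cancel₀ _ (hxne D)]
      have hxσ : Φ.σ ((x D).1 : F) = (x D).1 := by
        have := congrArg Subtype.val (x D).2
        simpa [Frob.twist] using this
      have haC : a ^ q = a := by
        refine smul_left_injective k (hxne D) ?_
        show a ^ q • ((x D).1 : F) = a • ((x D).1 : F)
        rw [hay]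
        conv_rhs => rw [← hyσ, ← hay, Φ.σ_smul, hxσ]
      refine ⟨(D, ⟨⟨a, haC⟩, fun h => hyne ?_⟩), Subtype.ext (Subtype.ext (Subtype.ext hay))⟩
      rw [← hay, show a = 0 from congrArg Subtype.val h, zero_smul]
  have key := Nat.card_eq_of_bijective Ψ hΨ
  rw [Nat.card_prod] at key
  have hC := natCard_ne_add_one o
  rw [natCard_pow_eq_self Φ.one_lt Φ.cast_zero] at hC
  have hT := natCard_ne_add_one z
  rw [hTcard, hell] at hT
  rw [← key] at hT
  zify at hT hC
  rw [← hT, ← hC]
  ring

/-! ## Finiteness -/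

theorem Frob.finite_fixed_places : {v : Place k F | Φ.g • v = v}.Finite := by
  have h : Φ.g • Finsupp.single X.inf (X.n₁ : ℤ) =
      Finsupp.single X.inf (X.n₁ : ℤ) + divOf k (1 : F) := by
    rw [Φ.smul_single_inf]
    ext v
    simp [divOf_apply]
  let φ := Φ.twist one_ne_zero h
  have hspan := span_fixed_eq_top Φ.one_lt Φ.cast_zero (Φ.twist_injective one_ne_zero h)
    (Φ.twist_smul one_ne_zero h)
  set T := {x : X.L X.n₁ // φ x = x}
  haveI : Finite T := Nat.finite_of_card_ne_zero (by
    rw [Φ.natCard_twist_fixed one_ne_zero h]; exact pow_ne_zero _ (by have := Φ.one_lt; omega))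
  haveI : Finite {a : k // a ^ q = a} := Nat.finite_of_card_ne_zero (by
    rw [natCard_pow_eq_self Φ.one_lt Φ.cast_zero]; have := Φ.one_lt; omega)
  have hval : ∀ {v : X.Pt}, Φ.g • v.1 = v.1 → ∀ x : T, valAt v.1 (x.1 : F) ^ q = valAt v.1 x.1 := by
    intro v hv x
    have hx : Φ.σ (x.1 : F) = x.1 := by
      have := congrArg Subtype.val x.2
      simpa [φ, Frob.twist] using this
    refine (valAt_eq ?_).symm
    rw [van_sub]
    have hmem := Setup.mem_ring x.1.2 v.2
    rcases van_sub.mp (valAt_spec hmem) with h0 | h0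
    · left
      have := congrArg Φ.σ h0
      rwa [map_sub, map_zero, hx, Φ.σ_algebraMap] at this
    · right
      have := Φ.ord_σ v.1 ((x.1 : F) - algebraMap k F (valAt v.1 x.1))
      rw [hv, map_sub, hx, Φ.σ_algebraMap] at this
      rw [this]
      exact h0
  have hfin : {v : X.Pt | Φ.g • v.1 = v.1}.Finite := by
    rw [Set.Finite]
    refine Finite.of_injective (β := T → {a : k // a ^ q = a})
      (fun v x => ⟨valAt v.1.1 (x.1 : F), hval v.2 x⟩) fun v w e => Subtype.ext (X.pt_ext fun i => ?_)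
    have hall : ∀ y : X.L X.n₁, valAt v.1.1 (y : F) = valAt w.1.1 (y : F) := fun y => by
      have hy : y ∈ Submodule.span k {x | φ x = x} := hspan ▸ Submodule.mem_top
      induction hy using Submodule.span_induction with
      | mem x hx => exact congrArg Subtype.val (congrFun e ⟨x, hx⟩)
      | zero =>
        rw [ZeroMemClass.coe_zero, ← map_zero (algebraMap k F), valAt_algebraMap, valAt_algebraMap]
      | add a b _ _ ha hb =>
        rw [Submodule.coe_add, valAt_add (Setup.mem_ring a.2 v.1.2) (Setup.mem_ring b.2 v.1.2),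
          valAt_add (Setup.mem_ring a.2 w.1.2) (Setup.mem_ring b.2 w.1.2), ha, hb]
      | smul r a _ ha =>
        rw [Submodule.coe_smul, valAt_smul r (Setup.mem_ring a.2 v.1.2),
          valAt_smul r (Setup.mem_ring a.2 w.1.2), ha]
    exact hall ⟨_, X.gen_mem i⟩
  refine ((hfin.image Subtype.val).union (Set.finite_singleton X.inf)).subset fun v hv => ?_
  rcases eq_or_ne v X.inf with rfl | hne
  · exact Or.inr rfl
  · exact Or.inl ⟨⟨v, hne⟩, hv, rfl⟩

theorem Frob.finite_fixed_pow {m : ℕ} (hm : 0 < m) : {v : Place k F | Φ.g ^ m • v = v}.Finite :=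
  (Φ.pow m hm).finite_fixed_places

theorem apply_pow_smul {D : Divisor k F} (hD : Φ.g • D = D) (t : ℕ) (v : Place k F) :
    D (Φ.g ^ t • v) = D v := by
  induction t with
  | zero => simp
  | succ t ih =>
    rw [pow_succ', mul_smul]
    conv_lhs => rw [← hD]
    rw [SemilinearAut.divisor_smul_apply_smul, ih]

theorem Frob.exists_period {n : ℕ} {D : Divisor k F} (hD : D ∈ Φ.eff n) {v : Place k F}
    (hv : D v ≠ 0) : ∃ i, 0 < i ∧ i ≤ n ∧ Φ.g ^ i • v = v := by
  obtain ⟨h0, hdeg, hfix⟩ := hD
  have hsub : (Finset.range (n + 1)).image (fun t => Φ.g ^ t • v) ⊆ D.support := fun w hw => by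
    obtain ⟨t, -, rfl⟩ := Finset.mem_image.mp hw
    rw [Finsupp.mem_support_iff, apply_pow_smul Φ hfix]
    exact hv
  have hcard : D.support.card ≤ n := by
    have hle : (D.support.card : ℤ) ≤ ∑ w ∈ D.support, D w := by
      rw [Finset.card_eq_sum_ones]
      push_cast
      refine Finset.sum_le_sum fun w hw => ?_
      have := Finsupp.le_def.mp h0 w
      have := Finsupp.mem_support_iff.mp hw
      simp only [Finsupp.zero_apply] at *
      omega
    rw [degree_eq_sum, Finsupp.sum] at hdeg
    omega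
  by_contra hall
  push Not at hall
  have hinj : Set.InjOn (fun t => Φ.g ^ t • v) (Finset.range (n + 1) : Set ℕ) := by
    intro a ha b hb e
    simp only [Finset.coe_range, Set.mem_Iio] at ha hb
    by_contra hne
    rcases lt_or_gt_of_ne hne with h | h
    · refine hall (b - a) (by omega) (by omega) ((smul_left_cancel_iff (Φ.g ^ a)).mp ?_)
      rw [← mul_smul, ← pow_add, Nat.add_sub_cancel' h.le]
      exact e.symm
    · refine hall (a - b) (by omega) (by omega) ((smul_left_cancel_iff (Φ.g ^ b)).mp ?_)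
      rw [← mul_smul, ← pow_add, Nat.add_sub_cancel' h.le]
      exact e
  have := (Finset.card_le_card hsub).trans hcard
  rw [Finset.card_image_of_injOn hinj, Finset.card_range] at this
  omega

theorem Frob.finite_eff (n : ℕ) : (Φ.eff n).Finite := by
  have hP : (⋃ i ∈ Set.Icc 1 n, {v : Place k F | Φ.g ^ i • v = v}).Finite :=
    (Set.finite_Icc 1 n).biUnion fun i hi => Φ.finite_fixed_pow hi.1
  haveI := hP.to_subtype
  set P := ⋃ i ∈ Set.Icc 1 n, {v : Place k F | Φ.g ^ i • v = v}
  have hle : ∀ D ∈ Φ.eff n, ∀ v, (D v).toNat < n + 1 := fun D hD v => by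
    obtain ⟨h0, hdeg, -⟩ := hD
    have h2 : Divisor.degree (Finsupp.single v (D v)) ≤ Divisor.degree D :=
      degree_le_of_le (Finsupp.le_def.mpr fun w => by
        have := Finsupp.le_def.mp h0 w
        rw [Finsupp.single_apply]
        split_ifs with h
        · subst h; exact le_rfl
        · simpa using this)
    rw [Divisor.degree_single, deg_one, Nat.cast_one, mul_one, hdeg] at h2
    omega
  rw [Set.Finite]
  refine Finite.of_injective (β := P → Fin (n + 1))
    (fun D v => ⟨(D.1 v.1).toNat, hle _ D.2 _⟩) fun D E e => Subtype.ext (Finsupp.ext fun v => ?_)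
  have hzero : ∀ D ∈ Φ.eff n, v ∉ P → D v = 0 := fun D hD hv => by
    by_contra h
    obtain ⟨i, hi, hin, hiv⟩ := Φ.exists_period hD h
    exact hv (Set.mem_biUnion (x := i) ⟨hi, hin⟩ hiv)
  by_cases hv : v ∈ P
  · have h1 := congrArg Fin.val (congrFun e ⟨v, hv⟩)
    have h2 := Finsupp.le_def.mp D.2.1 v
    have h3 := Finsupp.le_def.mp E.2.1 v
    simp only [Finsupp.zero_apply] at h1 h2 h3
    omega
  · rw [hzero _ D.2 hv, hzero _ E.2 hv]

theorem le_ellc (n : ℕ) (c : Pic0 k F) : (n : ℤ) + 1 - X.g ≤ ellc X n c := by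
  have := X.hR.le (rep X n c)
  rwa [degree_rep] at this

theorem Frob.finite_fixCls : {c : Pic0 k F | Φ.g • c = c}.Finite := by
  refine ((Φ.finite_eff X.g).image (cls X)).subset fun c hc => ?_
  obtain ⟨D, hD, hDc⟩ := Φ.exists_mem_effIn (n := X.g) hc (by
    have := le_ellc (X := X) X.g c; omega)
  exact ⟨D, hD, hDc⟩

/-- The fixed classes. -/
def Frob.fixCls : Finset (Pic0 k F) := Φ.finite_fixCls.toFinset

theorem Frob.mem_fixCls {c : Pic0 k F} : c ∈ Φ.fixCls ↔ Φ.g • c = c := Set.Finite.mem_toFinset _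

/-- The number of fixed effective divisors of degree `n`. -/
theorem Frob.natCard_eff (n : ℕ) :
    ((q : ℤ) - 1) * Nat.card (Φ.eff n) = ∑ c ∈ Φ.fixCls, ((q : ℤ) ^ ellc X n c - 1) := by
  have hfin : ∀ c, (Φ.effIn n c).Finite := fun c => (Φ.finite_eff n).subset fun D hD => hD.1
  have hcard : Nat.card (Φ.eff n) = ∑ c ∈ Φ.fixCls, Nat.card (Φ.effIn n c) := by
    rw [Nat.card_eq_card_finite_toFinset (Φ.finite_eff n), Finset.card_eq_sum_card_fiberwise
      (f := cls X) (t := Φ.fixCls) (fun D hD => ?_)]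
    · refine Finset.sum_congr rfl fun c _ => ?_
      rw [Nat.card_eq_card_finite_toFinset (hfin c)]
      congr 1
      ext D
      simp [Frob.effIn]
    · have h := (Set.Finite.mem_toFinset _).mp hD
      simp only [Finset.mem_coe]
      rw [Φ.mem_fixCls, Φ.smul_cls, h.2.2]
  rw [hcard, Nat.cast_sum, Finset.mul_sum]
  exact Finset.sum_congr rfl fun c hc => Φ.natCard_effIn (Φ.mem_fixCls.mp hc)

end Fermat.Agent.MCurve.FiniteField
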