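/-
The recursion between fixed effective divisors and fixed points of the powers of a Frobenius.
-/
import Fermat.Agent.MCurve.T27.Frobenius.Fixed
import Mathlib.GroupTheory.GroupAction.Period

set_option autoImplicit false
set_option linter.unusedSectionVars false
set_option linter.style.haveILetI false

noncomputable section

namespace Fermat.Agent.MCurve.FiniteField

open AlgebraicCurve RR Fermat.Agent.MCurve.MW Finset
open scoped Classical

variable {k F : Type*} [Field k] [Field F] [Algebra k F] [IsAlgClosed k]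
  [∀ v : Place k F, v.FiniteResidue] [HasPrincipalDivisors k F] [Nonempty (Place k F)]
  {X : Setup k F} {q : ℕ} (Φ : Frob X q)

/-- The fixed effective divisors as a finite set. -/
def Frob.effF (n : ℕ) : Finset (Divisor k F) := (Φ.finite_eff n).toFinset

theorem Frob.mem_effF {n : ℕ} {D : Divisor k F} : D ∈ Φ.effF n ↔ D ∈ Φ.eff n :=
  Set.Finite.mem_toFinset _

/-- The points fixed by a power. -/
def Frob.fixF (i : ℕ) : Finset (Place k F) :=
  if h : 0 < i then (Φ.finite_fixed_pow h).toFinset else ∅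

theorem Frob.mem_fixF {i : ℕ} (hi : 0 < i) {v : Place k F} :
    v ∈ Φ.fixF i ↔ Φ.g ^ i • v = v := by
  rw [Frob.fixF, dif_pos hi]
  exact Set.Finite.mem_toFinset _

/-- The sum of the first `i` iterates of a point. -/
def Frob.orb (v : Place k F) (i : ℕ) : Divisor k F :=
  ∑ t ∈ range i, Finsupp.single (Φ.g ^ t • v) 1

theorem Frob.orb_nonneg (v : Place k F) (i : ℕ) : 0 ≤ Φ.orb v i :=
  Finset.sum_nonneg fun _ _ => Finsupp.single_nonneg.mpr zero_le_one

theorem Frob.degree_orb (v : Place k F) (i : ℕ) : Divisor.degree (Φ.orb v i) = i := by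
  rw [Frob.orb, map_sum]
  simp [deg_one]

theorem Frob.smul_orb {v : Place k F} {i : ℕ} (h : Φ.g ^ i • v = v) :
    Φ.g • Φ.orb v i = Φ.orb v i := by
  rw [Frob.orb, Finset.smul_sum]
  simp only [SemilinearAut.smul_single, ← mul_smul, ← pow_succ']
  have h1 := Finset.sum_range_succ (fun t => Finsupp.single (Φ.g ^ t • v) (1 : ℤ)) i
  have h2 := Finset.sum_range_succ' (fun t => Finsupp.single (Φ.g ^ t • v) (1 : ℤ)) i
  rw [h1, h, pow_zero, one_smul] at h2
  exact (add_right_cancel h2).symm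

theorem Frob.orb_apply (v w : Place k F) (i : ℕ) :
    Φ.orb v i w = (((range i).filter fun t => Φ.g ^ t • v = w).card : ℤ) := by
  rw [Frob.orb, Finsupp.finsetSum_apply, Finset.card_filter]
  push_cast
  exact Finset.sum_congr rfl fun t _ => Finsupp.single_apply

theorem period_pos {v : Place k F} {i : ℕ} (hi : 0 < i) (h : Φ.g ^ i • v = v) :
    0 < MulAction.period Φ.g v := by
  rw [pos_iff_ne_zero]
  intro h0
  have := MulAction.pow_smul_eq_iff_period_dvd.mp h
  rw [h0, zero_dvd_iff] at this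
  omega

theorem Frob.orb_self {v : Place k F} {j : ℕ} (hp : 0 < MulAction.period Φ.g v) :
    Φ.orb v (j * MulAction.period Φ.g v) v = j := by
  rw [Φ.orb_apply]
  set p := MulAction.period Φ.g v
  have e : ((range (j * p)).filter fun t => Φ.g ^ t • v = v) = (range j).image (· * p) := by
    ext t
    simp only [mem_filter, mem_range, mem_image, MulAction.pow_smul_eq_iff_period_dvd]
    constructor
    · rintro ⟨ht, c, rfl⟩
      exact ⟨c, by rw [mul_comm p c] at ht; exact lt_of_mul_lt_mul_right ht (Nat.zero_le _),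
        mul_comm _ _⟩
    · rintro ⟨c, hc, rfl⟩
      exact ⟨Nat.mul_lt_mul_of_pos_right hc hp, Dvd.intro_left c rfl⟩
  rw [e, Finset.card_image_of_injective _ fun a b h => Nat.eq_of_mul_eq_mul_right hp h, card_range]

theorem Frob.orb_le {v w : Place k F} {j : ℕ} (hp : 0 < MulAction.period Φ.g v) :
    Φ.orb v (j * MulAction.period Φ.g v) w ≤ j := by
  rw [Φ.orb_apply]
  set p := MulAction.period Φ.g v
  rw [Nat.cast_le]
  refine le_of_le_of_eq (card_le_card_of_injOn (t := range j) (· / p) (fun t ht => ?_)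
    fun a ha b hb e => ?_) (card_range j)
  · simp only [coe_filter, mem_range, Set.mem_ofPred_eq] at ht
    simp only [coe_range, Set.mem_Iio]
    exact Nat.div_lt_of_lt_mul (by rw [mul_comm]; exact ht.1)
  · simp only [coe_filter, mem_range, Set.mem_ofPred_eq] at ha hb
    have hmod : a % p = b % p := by
      have h1 : ∀ t, Φ.g ^ (t % p) • v = Φ.g ^ t • v := fun t => MulAction.pow_mod_period_smul t
      by_contra hne
      have key : ∀ x y : ℕ, x < y → y < p → Φ.g ^ x • v ≠ Φ.g ^ y • v := fun x y hxy hy e => by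
        have : Φ.g ^ (y - x) • v = v := by
          refine (smul_left_cancel_iff (Φ.g ^ x)).mp ?_
          rw [← mul_smul, ← pow_add, Nat.add_sub_cancel' hxy.le, ← e]
        have := Nat.le_of_dvd (by omega) (MulAction.pow_smul_eq_iff_period_dvd.mp this)
        omega
      rcases lt_or_gt_of_ne hne with h | h
      · exact key _ _ h (Nat.mod_lt _ hp) (by rw [h1, h1, ha.2, hb.2])
      · exact key _ _ h (Nat.mod_lt _ hp) (by rw [h1, h1, ha.2, hb.2])
    calc a = a / p * p + a % p := (Nat.div_add_mod' a p).symm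
      _ = b / p * p + b % p := by rw [show a / p = b / p from e, hmod]
      _ = b := Nat.div_add_mod' b p

theorem Frob.orb_apply_eq_zero {D : Divisor k F} (hD : Φ.g • D = D) {v w : Place k F} (i : ℕ)
    (h : D w ≠ D v) : Φ.orb v i w = 0 := by
  rw [Φ.orb_apply, Finset.card_eq_zero.mpr (Finset.filter_eq_empty_iff.mpr fun t _ e =>
    h (by rw [← e]; exact apply_pow_smul Φ hD t v)), Nat.cast_zero]

theorem Frob.orb_le_divisor {D : Divisor k F} (h0 : 0 ≤ D) (hD : Φ.g • D = D) {v : Place k F}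
    {j : ℕ} (hj : (j : ℤ) ≤ D v) (hp : 0 < MulAction.period Φ.g v) :
    Φ.orb v (j * MulAction.period Φ.g v) ≤ D := Finsupp.le_def.mpr fun w => by
  by_cases hw : D w = D v
  · exact (Φ.orb_le hp).trans (hw ▸ hj)
  · rw [Φ.orb_apply_eq_zero hD _ hw]
    exact Finsupp.le_def.mp h0 w

/-- The recursion. -/
theorem Frob.recursion (n : ℕ) :
    n * (Φ.effF n).card = ∑ i ∈ Icc 1 n, (Φ.fixF i).card * (Φ.effF (n - i)).card := by
  let A : Finset (Σ _ : Divisor k F, Σ _ : Place k F, ℕ) :=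
    (Φ.effF n).sigma fun D => D.support.sigma fun v => range (D v).toNat
  let B : Finset (Σ _ : ℕ, Place k F × Divisor k F) :=
    (Icc 1 n).sigma fun i => Φ.fixF i ×ˢ Φ.effF (n - i)
  have hA : A.card = n * (Φ.effF n).card := by
    simp only [A, card_sigma, card_range]
    rw [Finset.sum_congr rfl (g := fun _ => n) fun D hD => ?_, sum_const, smul_eq_mul, mul_comm]
    obtain ⟨h0, hdeg, -⟩ := Φ.mem_effF.mp hD
    have : ((∑ v ∈ D.support, (D v).toNat : ℕ) : ℤ) = n := by
      rw [← hdeg, degree_eq_sum, Finsupp.sum, Nat.cast_sum]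
      exact Finset.sum_congr rfl fun v _ => Int.toNat_of_nonneg (Finsupp.le_def.mp h0 v)
    exact_mod_cast this
  have hB : B.card = ∑ i ∈ Icc 1 n, (Φ.fixF i).card * (Φ.effF (n - i)).card := by
    simp only [B, card_sigma, card_product]
  rw [← hA, ← hB]
  have facts : ∀ a ∈ A, 0 < MulAction.period Φ.g a.2.1 ∧ (a.2.2 + 1) * MulAction.period Φ.g a.2.1 ≤ n ∧
      Φ.orb a.2.1 ((a.2.2 + 1) * MulAction.period Φ.g a.2.1) ≤ a.1 ∧
      a.1 ∈ Φ.eff n ∧ a.2.2 < (a.1 a.2.1).toNat := by
    rintro ⟨D, v, r⟩ ha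
    simp only [A, mem_sigma, mem_range, Φ.mem_effF] at ha
    obtain ⟨hD, hv, hr⟩ := ha
    have hD' := hD
    obtain ⟨h0, hdeg, hfix⟩ := hD
    obtain ⟨i, hi, -, hiv⟩ := Φ.exists_period hD' (Finsupp.mem_support_iff.mp hv)
    have hp := period_pos Φ hi hiv
    have hle := Φ.orb_le_divisor h0 hfix (j := r + 1) (v := v) (by omega) hp
    refine ⟨hp, ?_, hle, hD', hr⟩
    have := degree_le_of_le hle
    rw [Φ.degree_orb, hdeg] at this
    exact_mod_cast this
  refine Finset.card_bij'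
    (fun a _ => ⟨(a.2.2 + 1) * MulAction.period Φ.g a.2.1,
      (a.2.1, a.1 - Φ.orb a.2.1 ((a.2.2 + 1) * MulAction.period Φ.g a.2.1))⟩)
    (fun b _ => ⟨b.2.2 + Φ.orb b.2.1 b.1, b.2.1, b.1 / MulAction.period Φ.g b.2.1 - 1⟩)
    ?_ ?_ ?_ ?_
  · intro a ha
    obtain ⟨hp, hn, hle, ⟨h0, hdeg, hfix⟩, hr⟩ := facts a ha
    have hpos : 0 < (a.2.2 + 1) * MulAction.period Φ.g a.2.1 := Nat.mul_pos (Nat.succ_pos _) hp
    have hfixv : Φ.g ^ ((a.2.2 + 1) * MulAction.period Φ.g a.2.1) • a.2.1 = a.2.1 :=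
      MulAction.pow_smul_eq_iff_period_dvd.mpr (Dvd.intro_left _ rfl)
    simp only [B, mem_sigma, mem_product, mem_Icc, Φ.mem_effF, Φ.mem_fixF hpos]
    refine ⟨⟨hpos, hn⟩, hfixv, sub_nonneg.mpr hle, ?_, ?_⟩
    · rw [map_sub, Φ.degree_orb, hdeg, Nat.cast_sub hn]
    · rw [smul_sub, hfix, Φ.smul_orb hfixv]
  · intro b hb
    simp only [B, mem_sigma, mem_product, mem_Icc, Φ.mem_effF] at hb
    obtain ⟨⟨hi, hin⟩, hv, h0, hdeg, hfix⟩ := hb
    rw [Φ.mem_fixF hi] at hv
    have hp := period_pos Φ hi hv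
    obtain ⟨j, hj⟩ := MulAction.pow_smul_eq_iff_period_dvd.mp hv
    have hj0 : 0 < j := Nat.pos_of_ne_zero fun h => by rw [h, mul_zero] at hj; omega
    have hval : (b.2.2 + Φ.orb b.2.1 b.1) b.2.1 = b.2.2 b.2.1 + j := by
      rw [Finsupp.add_apply, hj, mul_comm, Φ.orb_self hp]
    have hnn := Finsupp.le_def.mp h0 b.2.1
    rw [Finsupp.zero_apply] at hnn
    simp only [A, mem_sigma, mem_range, Φ.mem_effF, Finsupp.mem_support_iff, hval]
    refine ⟨⟨add_nonneg h0 (Φ.orb_nonneg _ _), ?_, ?_⟩, by omega, ?_⟩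
    · rw [map_add, Φ.degree_orb, hdeg, Nat.cast_sub hin]; ring
    · rw [smul_add, hfix, Φ.smul_orb hv]
    · rw [hj, Nat.mul_div_cancel_left _ hp]; omega
  · rintro ⟨D, v, r⟩ ha
    obtain ⟨hp, -⟩ := facts _ ha
    simp only
    rw [sub_add_cancel, Nat.mul_div_cancel _ hp, Nat.add_sub_cancel]
  · rintro ⟨i, v, E⟩ hb
    simp only [B, mem_sigma, mem_product, mem_Icc] at hb
    obtain ⟨⟨hi, -⟩, hv, -⟩ := hb
    rw [Φ.mem_fixF hi] at hv
    have hdvd := MulAction.pow_smul_eq_iff_period_dvd.mp hv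
    have hp := period_pos Φ hi hv
    have he : (i / MulAction.period Φ.g v - 1 + 1) * MulAction.period Φ.g v = i := by
      rw [Nat.sub_add_cancel (Nat.div_pos (Nat.le_of_dvd hi hdvd) hp), Nat.div_mul_cancel hdvd]
    simp only [he, add_sub_cancel_right]

end Fermat.Agent.MCurve.FiniteField
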