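/-
Logarithmic derivatives of power series and the roots of a polynomial with constant term one.
-/
import Mathlib.RingTheory.PowerSeries.NoZeroDivisors
import Mathlib.Algebra.Polynomial.Reverse
import Mathlib.Analysis.Complex.Polynomial.Basic
import Mathlib.RingTheory.Polynomial.Basic

set_option autoImplicit false

noncomputable section

namespace Fermat.Agent.MCurve.FiniteField

open PowerSeries Finset

/-- Multiplication of the `n`th coefficient by `n`. -/
def theta (f : ℂ⟦X⟧) : ℂ⟦X⟧ := PowerSeries.mk fun n => (n : ℂ) * coeff n f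

theorem coeff_theta (f : ℂ⟦X⟧) (n : ℕ) : coeff n (theta f) = (n : ℂ) * coeff n f := coeff_mk _ _

theorem theta_mul (f g : ℂ⟦X⟧) : theta (f * g) = theta f * g + f * theta g := by
  ext n
  rw [coeff_theta, map_add, coeff_mul, coeff_mul, coeff_mul, Finset.mul_sum, ← sum_add_distrib]
  refine sum_congr rfl fun p hp => ?_
  rw [mem_antidiagonal] at hp
  rw [coeff_theta, coeff_theta, ← hp]
  push_cast
  ring

/-- `A` is the logarithmic derivative of `f`. -/
def LogDer (f A : ℂ⟦X⟧) : Prop := theta f = f * A

theorem LogDer.one : LogDer 1 0 := by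
  ext n
  rcases eq_or_ne n 0 with rfl | h <;> simp [coeff_theta, coeff_one, *]

theorem LogDer.mul {f g A B : ℂ⟦X⟧} (hf : LogDer f A) (hg : LogDer g B) :
    LogDer (f * g) (A + B) := by
  unfold LogDer at *
  rw [theta_mul, hf, hg]
  ring

theorem LogDer.multiset_prod {ι : Type*} (s : Multiset ι) (f A : ι → ℂ⟦X⟧)
    (h : ∀ i ∈ s, LogDer (f i) (A i)) : LogDer (s.map f).prod (s.map A).sum := by
  induction s using Multiset.induction_on with
  | empty => simpa using LogDer.one
  | cons a s ih =>
    rw [Multiset.map_cons, Multiset.prod_cons, Multiset.map_cons, Multiset.sum_cons]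
    exact (h a (Multiset.mem_cons_self a s)).mul
      (ih fun i hi => h i (Multiset.mem_cons_of_mem hi))

theorem LogDer.ext_right {f A B : ℂ⟦X⟧} (hA : LogDer f A) (hB : LogDer f B) (hf : f ≠ 0) :
    A = B :=
  mul_left_cancel₀ hf (hA.symm.trans hB)

theorem LogDer.ext_left {f g A : ℂ⟦X⟧} (hf : LogDer f A) (hg : LogDer g A)
    (hA : coeff 0 A = 0) (h0 : coeff 0 f = coeff 0 g) : f = g := by
  ext n
  induction n using Nat.strong_induction_on with
  | _ n ih =>
    rcases eq_or_ne n 0 with rfl | hn
    · exact h0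
    have e1 := congrArg (coeff n) (hf : theta f = f * A)
    have e2 := congrArg (coeff n) (hg : theta g = g * A)
    rw [coeff_theta, coeff_mul] at e1 e2
    have : ∑ p ∈ antidiagonal n, coeff p.1 f * coeff p.2 A =
        ∑ p ∈ antidiagonal n, coeff p.1 g * coeff p.2 A := by
      refine sum_congr rfl fun p hp => ?_
      rw [mem_antidiagonal] at hp
      rcases eq_or_ne p.2 0 with h | h
      · rw [h, hA, mul_zero, mul_zero]
      · rw [ih p.1 (by omega)]
    exact mul_left_cancel₀ (Nat.cast_ne_zero.mpr hn) ((e1.trans this).trans e2.symm)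

/-- The linear factor `1 - a X`. -/
def lin (a : ℂ) : ℂ⟦X⟧ := 1 - C a * X

/-- The series `∑_{i ≥ 1} a^i X^i`. -/
def geo (a : ℂ) : ℂ⟦X⟧ := PowerSeries.mk fun n => if n = 0 then 0 else a ^ n

theorem coeff_lin_mul (a : ℂ) (f : ℂ⟦X⟧) (n : ℕ) :
    coeff (n + 1) (lin a * f) = coeff (n + 1) f - a * coeff n f := by
  rw [lin, sub_mul, one_mul, map_sub, mul_assoc, coeff_C_mul, coeff_succ_X_mul]

theorem coeff_zero_lin_mul (a : ℂ) (f : ℂ⟦X⟧) : coeff 0 (lin a * f) = coeff 0 f := by
  simp [lin, sub_mul, mul_assoc]

theorem coeff_lin (a : ℂ) (n : ℕ) :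
    coeff n (lin a) = if n = 0 then 1 else if n = 1 then -a else 0 := by
  rcases n with _ | _ | n <;> simp [lin, coeff_one]

theorem logDer_lin (a : ℂ) : LogDer (lin a) (-geo a) := by
  refine PowerSeries.ext fun n => ?_
  rw [coeff_theta, coeff_lin]
  rcases n with _ | _ | n
  · simp [geo]
  · rw [coeff_lin_mul]; simp [geo]
  · rw [coeff_lin_mul]
    simp [geo, pow_succ]
    ring

theorem lin_ne_zero (a : ℂ) : lin a ≠ 0 := fun h => by
  have := coeff_lin a 0
  rw [h] at this
  simp at this

/-- A series whose coefficients vanish beyond `D` splits into linear factors. -/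
theorem exists_roots {D : ℕ} (a : ℕ → ℤ) (h0 : a 0 = 1)
    (hz : ∀ n, D < n → a n = 0) :
    ∃ s : Multiset ℂ, Multiset.card s = D ∧ (∀ x ∈ s, IsIntegral ℤ x) ∧
      (s.map lin).prod = PowerSeries.mk (fun n => (a n : ℂ)) ∧
      (∑ n ∈ range (D + 1), (a n : ℂ)) = (s.map fun x => 1 - x).prod ∧
      (∀ x ∈ s, ∃ y : ℂ, IsIntegral ℤ y ∧ x * y = (a D : ℂ)) := by
  classical
  set P : Polynomial ℤ :=
    ∑ n ∈ range (D + 1), Polynomial.C (a n) * Polynomial.X ^ (D - n) with hP
  have hcoeff : ∀ i, P.coeff i = if i ≤ D then a (D - i) else 0 := fun i => by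
    rw [hP, Polynomial.finsetSum_coeff]
    simp only [Polynomial.coeff_C_mul_X_pow]
    split_ifs with h
    · rw [sum_eq_single (D - i)]
      · rw [if_pos (by omega)]
      · intro n hn hne; rw [if_neg]; rw [mem_range] at hn; omega
      · intro h'; rw [mem_range] at h'; omega
    · exact sum_eq_zero fun n hn => if_neg (by rw [mem_range] at hn; omega)
  have hdeg : P.natDegree = D := by
    refine Polynomial.natDegree_eq_of_le_of_coeff_ne_zero (Polynomial.natDegree_le_iff_coeff_eq_zero.mpr
      fun i hi => ?_) ?_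
    · rw [hcoeff, if_neg (by omega)]
    · rw [hcoeff, if_pos le_rfl, Nat.sub_self, h0]; exact one_ne_zero
  have hmon : P.Monic := by
    rw [Polynomial.Monic, Polynomial.leadingCoeff, hdeg, hcoeff, if_pos le_rfl, Nat.sub_self, h0]
  set Pc := P.map (Int.castRingHom ℂ) with hPc
  have hmonc : Pc.Monic := hmon.map _
  have hsplit : Pc.Splits := IsAlgClosed.splits _
  set s := Pc.roots with hs
  have hprod : Pc = (s.map fun x => Polynomial.X - Polynomial.C x).prod :=
    hsplit.eq_prod_roots_of_monic hmonc
  have hdegc : Pc.natDegree = D := by rw [hPc, hmon.natDegree_map, hdeg]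
  have hcoec : ∀ i, Pc.coeff i = if i ≤ D then (a (D - i) : ℂ) else 0 := fun i => by
    rw [hPc, Polynomial.coeff_map, hcoeff]; split_ifs <;> simp
  have hcard : Multiset.card s = D := by
    rw [hs, ← hsplit.natDegree_eq_card_roots, hdegc]
  have hroot : ∀ x ∈ s, Polynomial.aeval x P = 0 := fun x hx => by
    have := (Polynomial.mem_roots hmonc.ne_zero).mp hx
    rw [Polynomial.IsRoot, hPc, Polynomial.eval_map] at this
    rw [Polynomial.aeval_def]
    exact this
  have hrev : ((s.map fun x => (1 - Polynomial.C x * Polynomial.X : Polynomial ℂ)).prod) =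
      Pc.reverse := by
    rw [hprod]
    induction s using Multiset.induction_on with
    | empty => simp [Polynomial.reverse]
    | cons x s ih =>
      rw [Multiset.map_cons, Multiset.prod_cons, Multiset.map_cons, Multiset.prod_cons,
        Polynomial.reverse_mul_of_domain, ih]
      congr 1
      ext n
      rw [Polynomial.coeff_reverse, Polynomial.natDegree_X_sub_C]
      rcases n with _ | _ | n
      · rw [Polynomial.revAt_le zero_le_one]; simp [Polynomial.coeff_one, Polynomial.coeff_C]
      · rw [Polynomial.revAt_le le_rfl]; simp [Polynomial.coeff_one, Polynomial.coeff_C]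
      · rw [Polynomial.revAt_eq_self_of_lt (by omega)]
        simp [Polynomial.coeff_one, Polynomial.coeff_X]
  refine ⟨s, hcard, fun x hx => ⟨P, hmon, by rw [← Polynomial.aeval_def]; exact hroot x hx⟩,
    ?_, ?_, ?_⟩
  · have e : (s.map lin).prod =
        ((s.map fun x => (1 - Polynomial.C x * Polynomial.X : Polynomial ℂ)).prod :
          Polynomial ℂ).toPowerSeries := by
      rw [← Polynomial.coeToPowerSeries.ringHom_apply, map_multiset_prod, Multiset.map_map]
      congr 1
      refine Multiset.map_congr rfl fun x _ => ?_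
      simp [lin]
    rw [e, hrev]
    ext n
    rw [Polynomial.coeff_coe, Polynomial.coeff_reverse, hdegc, hcoec, coeff_mk]
    rcases le_or_gt n D with hn | hn
    · rw [Polynomial.revAt_le hn, if_pos (by omega), Nat.sub_sub_self hn]
    · rw [Polynomial.revAt_eq_self_of_lt hn, if_neg (by omega), hz n hn, Int.cast_zero]
  · have h1 := congrArg (Polynomial.eval (1 : ℂ)) hprod
    rw [Polynomial.eval_multiset_prod, Multiset.map_map] at h1
    simp only [Function.comp_def, Polynomial.eval_sub, Polynomial.eval_X, Polynomial.eval_C] at h1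
    rw [← h1, hPc, hP, Polynomial.map_sum, Polynomial.eval_finsetSum]
    exact sum_congr rfl fun n _ => by simp
  · intro x hx
    refine ⟨-∑ n ∈ range D, (a n : ℂ) * x ^ (D - n - 1), IsIntegral.neg (IsIntegral.sum _
      fun n _ => ((isIntegral_algebraMap (R := ℤ) (x := a n)).mul
        (IsIntegral.pow ⟨P, hmon, by rw [← Polynomial.aeval_def]; exact hroot x hx⟩ _))), ?_⟩
    have h := hroot x hx
    rw [hP, map_sum, sum_range_succ] at h
    simp only [map_mul, map_pow, Polynomial.aeval_X, Nat.sub_self, pow_zero,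
      mul_one, eq_intCast, map_intCast] at h
    rw [mul_neg, neg_eq_iff_eq_neg, ← eq_neg_of_add_eq_zero_left h, mul_sum]
    refine sum_congr rfl fun n hn => ?_
    rw [mem_range] at hn
    rw [mul_left_comm, ← pow_succ', show D - n - 1 + 1 = D - n by omega]

end Fermat.Agent.MCurve.FiniteField
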