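/-
The numerator of the zeta function and the number of fixed classes of the powers of a Frobenius.
-/
import Fermat.Agent.MCurve.T27.Frobenius.Count
import Fermat.Agent.MCurve.T27.Frobenius.LogDer

set_option autoImplicit false
set_option linter.unusedSectionVars false
set_option linter.style.haveILetI false

noncomputable section

namespace Fermat.Agent.MCurve.FiniteField

open AlgebraicCurve RR Fermat.Agent.MCurve.MW Finset
open scoped Classical

variable {k F : Type*} [Field k] [Field F] [Algebra k F] [IsAlgClosed k]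
  [∀ v : Place k F, v.FiniteResidue] [HasPrincipalDivisors k F] [Nonempty (Place k F)]
  {X : Setup k F} {q : ℕ}

theorem smul_mem_space (g : SemilinearAut k F) {D : Divisor k F} {x : F}
    (hx : x ∈ riemannRochSpace D) : g • x ∈ riemannRochSpace (g • D) := by
  rcases eq_or_ne x 0 with rfl | h0
  · rw [smul_zero]; exact zero_mem _
  refine mem_space_iff.mpr (Or.inr fun v => ?_)
  rw [SemilinearAut.divisor_smul_apply]
  conv_rhs => rw [← smul_inv_smul g v]
  rw [SemilinearAut.ord_smul]
  exact ((mem_space_iff.mp hx).resolve_left h0) _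

theorem ell_smul (g : SemilinearAut k F) (D : Divisor k F) : ell (g • D) = ell D := by
  let j : riemannRochSpace D ≃+ riemannRochSpace (g • D) :=
    { toFun := fun x => ⟨g • (x : F), smul_mem_space g x.2⟩
      invFun := fun y => ⟨g⁻¹ • (y : F), by simpa [inv_smul_smul] using smul_mem_space g⁻¹ y.2⟩
      left_inv := fun x => Subtype.ext (inv_smul_smul g (x : F))
      right_inv := fun y => Subtype.ext (smul_inv_smul g (y : F))
      map_add' := fun x y => Subtype.ext (smul_add g (x : F) (y : F)) }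
  have h := lift_rank_eq_of_equiv_equiv (SemilinearAut.baseAut g : k → k) j
    (SemilinearAut.baseAut g).bijective fun a x => Subtype.ext (by
      show g • (a • (x : F)) = SemilinearAut.baseAut g a • (g • (x : F))
      rw [Algebra.smul_def, Algebra.smul_def, smul_mul', SemilinearAut.smul_algebraMap])
  simp only [Cardinal.lift_id] at h
  exact (Module.finrank_eq_of_rank_eq (by rw [h, Module.finrank_eq_rank]) : _).symm

/-- The integral coefficients of the numerator. -/
def lCoeff (S : ℕ → ℤ) (q : ℤ) : ℕ → ℤ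
  | 0 => S 0
  | 1 => S 1 - (q + 1) * S 0
  | n + 2 => S (n + 2) - (q + 1) * S (n + 1) + q * S n

theorem sum_lCoeff (S : ℕ → ℤ) (q : ℤ) (N : ℕ) :
    ∑ n ∈ range (N + 2), lCoeff S q n = S (N + 1) - q * S N := by
  induction N with
  | zero => simp [Finset.sum_range_succ, lCoeff]; ring
  | succ N ih => rw [Finset.sum_range_succ, ih, lCoeff]; ring

theorem lin_lin_mul (S : ℕ → ℤ) (q : ℤ) :
    lin 1 * (lin (q : ℂ) * PowerSeries.mk fun n => (S n : ℂ)) =
      PowerSeries.mk fun n => (lCoeff S q n : ℂ) := by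
  refine PowerSeries.ext fun n => ?_
  rcases n with _ | _ | n
  · simp [coeff_zero_lin_mul, lCoeff, PowerSeries.coeff_mk]
  · rw [coeff_lin_mul, coeff_lin_mul, coeff_zero_lin_mul]
    simp [lCoeff]; ring
  · rw [coeff_lin_mul, coeff_lin_mul, coeff_lin_mul]
    simp [lCoeff]; ring

theorem prod_lin_facts (s : Multiset ℂ) :
    (∀ n, Multiset.card s < n → PowerSeries.coeff n (s.map lin).prod = 0) ∧
    ∀ N, Multiset.card s ≤ N →
      ∑ n ∈ range (N + 1), PowerSeries.coeff n (s.map lin).prod = (s.map fun x => 1 - x).prod := by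
  induction s using Multiset.induction_on with
  | empty =>
    refine ⟨fun n hn => ?_, fun N _ => ?_⟩
    · simp at hn; simp [PowerSeries.coeff_one, hn.ne']
    · simp [PowerSeries.coeff_one]
  | cons b s ih =>
    simp only [Multiset.map_cons, Multiset.prod_cons, Multiset.card_cons]
    refine ⟨fun n hn => ?_, fun N hN => ?_⟩
    · obtain ⟨n, rfl⟩ : ∃ j, n = j + 1 := ⟨n - 1, by omega⟩
      rw [coeff_lin_mul, ih.1 _ (by omega), ih.1 _ (by omega), mul_zero, sub_zero]
    · obtain ⟨N, rfl⟩ : ∃ j, N = j + 1 := ⟨N - 1, by omega⟩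
      rw [Finset.sum_range_succ', coeff_zero_lin_mul]
      simp only [coeff_lin_mul, Finset.sum_sub_distrib, ← Finset.mul_sum]
      rw [ih.2 N (by omega), show ∀ a b c : ℂ, a - b + c = (a + c) - b from fun a b c => by ring,
        ← Finset.sum_range_succ' (fun n => PowerSeries.coeff n (s.map lin).prod) (N + 1),
        ih.2 (N + 1) (by omega)]
      ring

variable (Φ : Frob X q)

/-- The series of fixed effective divisors. -/
def Frob.zeta : PowerSeries ℂ := PowerSeries.mk fun n => ((Φ.effF n).card : ℂ)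

/-- The series of fixed points of powers. -/
def Frob.points : PowerSeries ℂ :=
  PowerSeries.mk fun n => if n = 0 then 0 else ((Φ.fixF n).card : ℂ)

theorem Frob.logDer_zeta : LogDer Φ.zeta Φ.points := by
  refine PowerSeries.ext fun n => ?_
  rw [coeff_theta, mul_comm Φ.zeta, PowerSeries.coeff_mul,
    Finset.Nat.sum_antidiagonal_eq_sum_range_succ_mk]
  simp only [Frob.zeta, Frob.points, PowerSeries.coeff_mk]
  have h := congrArg (Nat.cast : ℕ → ℂ) (Φ.recursion n)
  push_cast at h
  rw [h, show range (n + 1) = insert 0 (Icc 1 n) by ext i; simp; omega, Finset.sum_insert (by simp),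
    if_pos rfl, zero_mul, zero_add]
  exact Finset.sum_congr rfl fun i hi => by rw [if_neg (by simp at hi; omega)]

theorem Frob.effF_zero : Φ.effF 0 = {0} := by
  ext D
  rw [Φ.mem_effF, Finset.mem_singleton]
  refine ⟨fun h => eq_zero_of_degree_le h.1 (by rw [h.2.1]; simp), fun h => ?_⟩
  subst h
  exact ⟨le_rfl, by simp, smul_zero _⟩

theorem Frob.card_eff (n : ℕ) :
    ((q : ℤ) - 1) * (Φ.effF n).card = ∑ c ∈ Φ.fixCls, ((q : ℤ) ^ ellc X n c - 1) := by
  rw [← Φ.natCard_eff n, Frob.effF, Nat.card_eq_card_finite_toFinset (Φ.finite_eff n)]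

variable (hlarge : ∀ D : Divisor k F, 2 * (X.g : ℤ) - 1 ≤ Divisor.degree D →
  (ell D : ℤ) = Divisor.degree D + 1 - X.g)
  {W : Divisor k F} (hW : ∀ D : Divisor k F,
    (ell D : ℤ) - ell (W - D) = Divisor.degree D + 1 - X.g)

include hlarge in
theorem Frob.card_eff_large {n : ℕ} (hn : 2 * X.g ≤ n + 1) :
    ((q : ℤ) - 1) * (Φ.effF n).card = Φ.fixCls.card * ((q : ℤ) ^ (n + 1 - X.g) - 1) := by
  rw [Φ.card_eff, Finset.sum_congr rfl (g := fun _ => (q : ℤ) ^ (n + 1 - X.g) - 1) fun c _ => ?_,
    Finset.sum_const, nsmul_eq_mul]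
  have h := hlarge (rep X n c) (by rw [degree_rep]; omega)
  rw [degree_rep] at h
  rw [show ellc X n c = n + 1 - X.g by unfold ellc; omega]

include hW in
theorem canonical_facts :
    Divisor.degree W = 2 * (X.g : ℤ) - 2 ∧ ell W = X.g := by
  have h1 := hW 0
  have h2 := hW W
  rw [sub_zero, map_zero, ell_zero_eq] at h1
  rw [sub_self, ell_zero_eq] at h2
  omega

theorem ell_degree_zero {D : Divisor k F} (hD : Divisor.degree D = 0) :
    ell D = if D ∈ Divisor.principal (K := k) (F := F) then 1 else 0 := by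
  split_ifs with h
  · rw [ell_eq_of_principal (D := (0 : Divisor k F)) (by rwa [sub_zero]), ell_zero_eq]
  · by_contra hne
    obtain ⟨E, hE, hED⟩ := exists_effective (D := D) (Nat.pos_of_ne_zero hne)
    rw [eq_zero_of_degree_le hE (le_of_eq ((degree_eq_of_principal hED).trans hD)), zero_sub] at hED
    exact h (neg_mem_iff.mp hED)

include hlarge hW in
theorem Frob.card_eff_canonical {n : ℕ} (hn : n + 2 = 2 * X.g) :
    ((q : ℤ) - 1) * (Φ.effF n).card =
      Φ.fixCls.card * ((q : ℤ) ^ (X.g - 1) - 1) + ((q : ℤ) ^ X.g - (q : ℤ) ^ (X.g - 1)) := by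
  obtain ⟨hdW, hlW⟩ := canonical_facts hW
  have hdW' : Divisor.degree W = (n : ℤ) := by omega
  have key : ∀ c, ellc X n c = if cls X W = c then X.g else X.g - 1 := by
    intro c
    have h := hW (rep X n c)
    rw [degree_rep, ell_degree_zero (D := W - rep X n c)
      (by rw [map_sub, degree_rep, hdW', sub_self])] at h
    have hiff : W - rep X n c ∈ Divisor.principal (K := k) (F := F) ↔ cls X W = c := by
      rw [← cls_eq_iff (X := X) (by rw [degree_rep, hdW']), cls_rep, eq_comm]
    simp only [hiff] at h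
    unfold ellc
    split_ifs at h ⊢ with hc <;> push_cast at h <;> omega
  have hfix : cls X W ∈ Φ.fixCls := by
    rw [Φ.mem_fixCls, Φ.smul_cls]
    have h1 := key (cls X (Φ.g • W))
    rw [← ell_eq_ellc (X := X) (by rw [SemilinearAut.degree_smul, hdW']), ell_smul, hlW] at h1
    by_contra hne
    rw [if_neg (fun e => hne e.symm)] at h1
    omega
  rw [Φ.card_eff]
  simp only [key]
  rw [← Finset.add_sum_erase _ _ hfix, if_pos rfl, Finset.sum_congr rfl
    (g := fun _ => (q : ℤ) ^ (X.g - 1) - 1) (fun c hc => by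
      rw [if_neg (Finset.ne_of_mem_erase hc).symm]), Finset.sum_const, Finset.card_erase_of_mem hfix,
    nsmul_eq_mul, Nat.cast_sub (Finset.card_pos.mpr ⟨_, hfix⟩)]
  ring

include hlarge hW in
theorem Frob.numerator_facts (hg : 0 < X.g) :
    let a := lCoeff (fun n => ((Φ.effF n).card : ℤ)) q
    a 0 = 1 ∧ (∀ n, 2 * X.g < n → a n = 0) ∧ a (2 * X.g) = (q : ℤ) ^ X.g ∧
      ∑ n ∈ range (2 * X.g + 1), a n = Φ.fixCls.card := by
  intro a
  have hq : (q : ℤ) - 1 ≠ 0 := by have := Φ.one_lt; omega
  have T : ∀ {n}, 2 * X.g ≤ n + 1 →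
      ((q : ℤ) - 1) * (Φ.effF n).card = Φ.fixCls.card * ((q : ℤ) ^ (n + 1 - X.g) - 1) :=
    fun h => Φ.card_eff_large hlarge h
  refine ⟨?_, fun n hn => ?_, ?_, ?_⟩
  · simp [a, lCoeff, Φ.effF_zero]
  · obtain ⟨n, rfl⟩ : ∃ j, n = j + 2 := ⟨n - 2, by omega⟩
    refine mul_left_cancel₀ hq ?_
    have h1 := T (n := n + 2) (by omega)
    have h2 := T (n := n + 1) (by omega)
    have h3 := T (n := n) (by omega)
    rw [show n + 2 + 1 - X.g = n + 1 - X.g + 2 by omega] at h1
    rw [show n + 1 + 1 - X.g = n + 1 - X.g + 1 by omega] at h2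
    simp only [a, lCoeff, mul_zero]
    linear_combination h1 - ((q : ℤ) + 1) * h2 + (q : ℤ) * h3
  · obtain ⟨n, hn⟩ : ∃ j, 2 * X.g = j + 2 := ⟨2 * X.g - 2, by omega⟩
    obtain ⟨d, hd⟩ : ∃ d, X.g = d + 1 := ⟨X.g - 1, by omega⟩
    rw [hn]
    refine mul_left_cancel₀ hq ?_
    have h1 := T (n := n + 2) (by omega)
    have h2 := T (n := n + 1) (by omega)
    have h3 := Φ.card_eff_canonical hlarge hW hn.symm
    rw [show n + 2 + 1 - X.g = d + 2 by omega] at h1
    rw [show n + 1 + 1 - X.g = d + 1 by omega] at h2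
    rw [show X.g - 1 = d by omega, show X.g = d + 1 from hd] at h3
    rw [hd]
    simp only [a, lCoeff]
    linear_combination h1 - ((q : ℤ) + 1) * h2 + (q : ℤ) * h3
  · obtain ⟨n, hn⟩ : ∃ j, 2 * X.g = j + 1 := ⟨2 * X.g - 1, by omega⟩
    rw [hn, sum_lCoeff]
    refine mul_left_cancel₀ hq ?_
    have h1 := T (n := n + 1) (by omega)
    have h2 := T (n := n) (by omega)
    rw [show n + 1 + 1 - X.g = n + 1 - X.g + 1 by omega] at h1
    linear_combination h1 - (q : ℤ) * h2

theorem Frob.fixF_pow {m : ℕ} (hm : 0 < m) {i : ℕ} (hi : 0 < i) :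
    (Φ.pow m hm).fixF i = Φ.fixF (m * i) := by
  ext v
  rw [(Φ.pow m hm).mem_fixF hi, Φ.mem_fixF (Nat.mul_pos hm hi), pow_mul]
  rfl

include hlarge hW in
/-- The roots of the numerator give the number of fixed classes of every power. -/
theorem Frob.exists_roots_fixCls (hg : 0 < X.g) :
    ∃ s : Multiset ℂ, Multiset.card s = 2 * X.g ∧ (∀ x ∈ s, IsIntegral ℤ x) ∧
      (∀ x ∈ s, ∃ y : ℂ, IsIntegral ℤ y ∧ x * y = ((q ^ X.g : ℕ) : ℂ)) ∧
      ∀ m (hm : 0 < m), ((Φ.pow m hm).fixCls.card : ℂ) = (s.map fun x => 1 - x ^ m).prod := by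
  obtain ⟨h0, hz, htop, -⟩ := Φ.numerator_facts hlarge hW hg
  obtain ⟨s, hcard, hint, hprod, -, hunit⟩ := exists_roots _ h0 hz
  refine ⟨s, hcard, hint, fun x hx => ?_, fun m hm => ?_⟩
  · obtain ⟨y, hy, hxy⟩ := hunit x hx
    exact ⟨y, hy, by rw [hxy, htop]; push_cast; rfl⟩
  -- the points of the curve
  have hL : LogDer (s.map lin).prod (s.map fun x => -geo x).sum :=
    LogDer.multiset_prod s lin (fun x => -geo x) fun x _ => logDer_lin x
  have hL' : LogDer (s.map lin).prod (-geo 1 + (-geo ((q : ℤ) : ℂ) + Φ.points)) := by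
    rw [hprod, ← lin_lin_mul]
    exact (logDer_lin 1).mul ((logDer_lin _).mul (by simpa [Frob.zeta] using Φ.logDer_zeta))
  have hne : (s.map lin).prod ≠ 0 := Multiset.prod_ne_zero fun h => by
    obtain ⟨x, -, hx⟩ := Multiset.mem_map.mp h
    exact lin_ne_zero x hx
  have hN := hL'.ext_right hL hne
  set Ψ := Φ.pow m hm with hΨ
  obtain ⟨h0', hz', -, hsum'⟩ := Ψ.numerator_facts hlarge hW hg
  set am := lCoeff (fun n => ((Ψ.effF n).card : ℤ)) ((q ^ m : ℕ) : ℤ) with ham
  have hLm : LogDer (PowerSeries.mk fun n => (am n : ℂ))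
      (-geo 1 + (-geo (((q ^ m : ℕ) : ℤ) : ℂ) + Ψ.points)) := by
    rw [ham, ← lin_lin_mul]
    exact (logDer_lin 1).mul ((logDer_lin _).mul (by simpa [Frob.zeta] using Ψ.logDer_zeta))
  have hPm : LogDer ((s.map fun x => x ^ m).map lin).prod
      ((s.map fun x => x ^ m).map fun x => -geo x).sum :=
    LogDer.multiset_prod _ lin (fun x => -geo x) fun x _ => logDer_lin x
  have hA : (-geo 1 + (-geo (((q ^ m : ℕ) : ℤ) : ℂ) + Ψ.points)) =
      ((s.map fun x => x ^ m).map fun x => -geo x).sum := by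
    have hsumc : ∀ (t : Multiset ℂ) (n : ℕ), 0 < n →
        PowerSeries.coeff n (t.map fun x => -geo x).sum = -(t.map fun x => x ^ n).sum :=
      fun t n hn => by
        induction t using Multiset.induction_on with
        | empty => simp
        | cons b t ih =>
          rw [Multiset.map_cons, Multiset.sum_cons, map_add, ih, Multiset.map_cons,
            Multiset.sum_cons, map_neg, geo, PowerSeries.coeff_mk, if_neg hn.ne']
          ring
    have hsum0 : ∀ t : Multiset ℂ, PowerSeries.coeff 0 (t.map fun x => -geo x).sum = 0 :=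
      fun t => by
        induction t using Multiset.induction_on with
        | empty => simp
        | cons b t ih => rw [Multiset.map_cons, Multiset.sum_cons, map_add, ih]; simp [geo]
    refine PowerSeries.ext fun n => ?_
    rcases eq_or_ne n 0 with rfl | hn
    · rw [hsum0]; simp [geo, Frob.points]
    have hn' := Nat.pos_of_ne_zero hn
    have h := congrArg (PowerSeries.coeff (m * n)) hN
    rw [hsumc s _ (Nat.mul_pos hm hn')] at h
    rw [hsumc _ n hn', Multiset.map_map]
    simp only [Function.comp_def, ← pow_mul]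
    rw [← h]
    simp [geo, Frob.points, hn, hm.ne', hΨ, Φ.fixF_pow hm hn', pow_mul]
  have heq : (PowerSeries.mk fun n => (am n : ℂ)) = ((s.map fun x => x ^ m).map lin).prod := by
    refine hLm.ext_left (hA ▸ hPm) ?_ ?_
    · simp [geo, Frob.points]
    · rw [PowerSeries.coeff_mk, h0', Int.cast_one]
      generalize (s.map fun x => x ^ m) = t
      induction t using Multiset.induction_on with
      | empty => simp
      | cons b t ih => rw [Multiset.map_cons, Multiset.prod_cons, coeff_zero_lin_mul, ← ih]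
  have hval := (prod_lin_facts (s.map fun x => x ^ m)).2 (2 * X.g)
    (by rw [Multiset.card_map, hcard])
  rw [← heq, Multiset.map_map] at hval
  simp only [PowerSeries.coeff_mk, Function.comp_def] at hval
  rw [← hval]
  have := congrArg (Int.cast : ℤ → ℂ) hsum'
  push_cast at this ⊢
  exact this.symm

end Fermat.Agent.MCurve.FiniteField
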